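import Fermat.Agent.S56.F.Red.CountZ

/-!
# S56 / F / Red / Count : `dim Lred ≤ h⁰(D, ad⁰) + f`.        TASK S56/FR-Count

* `finrank_range_add_le` (abstract rank-nullity): `finrank (range π') = finrank Z - finrank (ker π')`, `range δ ≤ ker π'`, `finrank (range δ) = finrank Y - finrank (ker δ)`
  (`LinearMap.finrank_range_add_finrank_ker`, `Submodule.finrank_mono`).
* `W0 p B C := {m : Ad0 p k | IsW0 B C m}`; `two_mul_le_finrank_W0`: the linear map `k × k → W0`, `(x, y) ↦ B * !![x, y; 0, -x] * C` (trace zero: `Matrix.trace_mul_comm`, `C B = 1`; `C (B X C) B = X`: `Loc.OrdDim_sandwich'`)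
  is injective; `LinearMap.finrank_le_finrank_of_injective`, `Module.finrank_prod`, `two_mul`.
* `d0_mem_ZZ`: for `m ∈ W0`: `d0 ρ m σ = M σ m M σ⁻¹ - m`: in `W¹ ⊂ W⁰` by `conj_sub_W1` for all `σ ∈ D`; for `σ ∈ Ipeu`: `M σ = 1` (`h.peu`), `M σ⁻¹ = 1` (`map_inv_mul`/`inv_mem`), so `0`.
* `finrank_Lred_le`: `Z := ZZ p M B C` (finite: submodule of `Z1`, `finite_Z1`), `Y := W0 p B C`, `δ m := ⟨⟨d0 ρ m, B1_le_Z1 ⟨m, rfl⟩⟩, d0_mem_ZZ ..⟩`, `π' := (H1.mk ..).comp Z.subtype`;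
  `π' (δ m) = 0` (`H1.mk_eq_zero_iff`), `range π' = Lred` (`Submodule.map` = `LinearMap.range_comp`/`Submodule.map_subtype_range..`: `LinearMap.range_domRestrict`-style; or show `finrank Lred ≤ finrank (range π')` by `le`),
  `ker δ` injects into `H0 ρ` (`m ↦ m`; `d0 ρ m = 0 ⇒ ρ σ m = m`).  Then `finrank Lred + 2 f ≤ 3 f + h⁰`.
-/

set_option autoImplicit false

noncomputable section

namespace Fermat.Agent.S56.F.Red

open Fermat.Agent.S55 Fermat.Agent.S55.Places ExtCitation Module Fermat.Agent.S56.Loc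

theorem finrank_range_add_le {K Z Y Q : Type*} [Field K] [AddCommGroup Z] [Module K Z]
    [AddCommGroup Y] [Module K Y] [AddCommGroup Q] [Module K Q] [FiniteDimensional K Z]
    [FiniteDimensional K Y] (δ : Y →ₗ[K] Z) (π' : Z →ₗ[K] Q) (hπ : ∀ b, π' (δ b) = 0) :
    finrank K (LinearMap.range π') + finrank K Y ≤ finrank K Z + finrank K (LinearMap.ker δ) := by
  have h1 := LinearMap.finrank_range_add_finrank_ker π'
  have h2 := LinearMap.finrank_range_add_finrank_ker δ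
  have h3 : LinearMap.range δ ≤ LinearMap.ker π' := by
    rintro _ ⟨b, rfl⟩
    exact LinearMap.mem_ker.2 (hπ b)
  have h4 := Submodule.finrank_mono h3
  omega

variable {p : ℕ} [Fact p.Prime] {k : Type} [Field k] [Algebra (ZMod p) k]
variable {M : GQ →* M2 k} {B C : M2 k}

/-- `W⁰ ⊂ ad⁰`. -/
def W0 (p : ℕ) [Fact p.Prime] {k : Type} [Field k] [Algebra (ZMod p) k] (B C : M2 k) :
    Submodule (ZMod p) (Ad0 p k) where
  carrier := {m | IsW0 B C (m : M2 k)}
  add_mem' := by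
    intro a b h1 h2
    simp only [Set.mem_setOf_eq, IsW0] at h1 h2 ⊢
    simp only [Submodule.coe_add, mul_add, add_mul, Matrix.add_apply, h1, h2, add_zero]
  zero_mem' := by simp [IsW0]
  smul_mem' := by
    intro c a h1
    simp only [Set.mem_setOf_eq, IsW0] at h1 ⊢
    simp only [Submodule.coe_smul, Matrix.mul_smul, Matrix.smul_mul, Matrix.smul_apply, h1,
      smul_zero]

/-- `(x, y) ↦ !![x, y; 0, -x]`. -/
def Count_upper (p : ℕ) [Fact p.Prime] (k : Type) [Field k] [Algebra (ZMod p) k] :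
    k × k →ₗ[ZMod p] M2 k where
  toFun v := !![v.1, v.2; 0, -v.1]
  map_add' a b := by
    ext i j
    fin_cases i <;> fin_cases j <;> simp [add_comm]
  map_smul' c a := by
    ext i j
    fin_cases i <;> fin_cases j <;> simp

theorem two_mul_le_finrank_W0 [Finite k] (hBC : B * C = 1) (hCB : C * B = 1) :
    2 * finrank (ZMod p) k ≤ finrank (ZMod p) ↥(W0 p B C) := by
  have : Module.Finite (ZMod p) k := Module.Finite.of_finite
  have : Finite (M2 k) := inferInstance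
  have : Finite (Ad0 p k) := inferInstance
  have : Module.Finite (ZMod p) (Ad0 p k) := Module.Finite.of_finite
  have h1 : ∀ v : k × k, (conjLin p B C ∘ₗ Count_upper p k) v ∈
      LinearMap.ker (Matrix.traceLinearMap (Fin 2) (ZMod p) k) := by
    intro v
    rw [mem_Ad0]
    show (B * !![v.1, v.2; 0, -v.1] * C).trace = 0
    rw [Matrix.trace_mul_comm, ← mul_assoc, hCB, one_mul, Matrix.trace_fin_two]
    simp
  have h2 : ∀ v : k × k, LinearMap.codRestrict _ (conjLin p B C ∘ₗ Count_upper p k) h1 v ∈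
      W0 p B C := by
    intro v
    show (C * (B * !![v.1, v.2; 0, -v.1] * C) * B) 1 0 = 0
    rw [OrdDim_sandwich' hCB]
    simp
  have h3 := LinearMap.finrank_le_finrank_of_injective
    (f := LinearMap.codRestrict (W0 p B C)
      (LinearMap.codRestrict _ (conjLin p B C ∘ₗ Count_upper p k) h1) h2) (by
    rw [← LinearMap.ker_eq_bot, LinearMap.ker_eq_bot']
    intro v hv
    have hv' : B * !![v.1, v.2; 0, -v.1] * C = 0 :=
      congrArg (fun w : ↥(W0 p B C) => ((w : Ad0 p k) : M2 k)) hv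
    have e := OrdDim_sandwich' hCB !![v.1, v.2; 0, -v.1]
    rw [hv', mul_zero, zero_mul] at e
    have e0 := congrFun (congrFun e 0) 0
    have e1 := congrFun (congrFun e 0) 1
    simp at e0 e1
    exact Prod.ext e0.symm e1.symm)
  rw [Module.finrank_prod] at h3
  omega

theorem d0_mem_ZZ (hM : ResHyp p M) (h : RedShape p M B C) (m : Ad0 p k) (hm : m ∈ W0 p B C)
    (hz : d0 (rsub (ad0 p M) (Dq p)) m ∈ Z1 (Lq p) (rsub (ad0 p M) (Dq p))) :
    (⟨d0 (rsub (ad0 p M) (Dq p)) m, hz⟩ : ↥(Z1 (Lq p) (rsub (ad0 p M) (Dq p)))) ∈ ZZ p M B C := by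
  have key : ∀ σ : Dq p, IsW1 B C ((d0 (rsub (ad0 p M) (Dq p)) m σ : Ad0 p k) : M2 k) :=
    fun σ => conj_sub_W1 h σ.2 hm
  refine ⟨fun σ => (key σ).2.1, fun σ _ => key σ, fun σ hσ => ?_⟩
  apply Subtype.ext
  show M (σ : GQ) * (m : M2 k) * M (σ : GQ)⁻¹ - (m : M2 k) = 0
  rw [h.peu _ hσ, h.peu _ (inv_mem hσ), one_mul, mul_one, sub_self]

theorem finrank_Lred_le [Finite k] (hp2 : p ≠ 2) (hK : PeuK p) (hM : ResHyp p M)
    (h : RedShape p M B C) :
    finrank (ZMod p) ↥(Lred p M B C) ≤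
      finrank (ZMod p) ↥(H0 (rsub (ad0 p M) (Dq p))) + finrank (ZMod p) k := by
  have : Module.Finite (ZMod p) k := Module.Finite.of_finite
  have : Finite (M2 k) := inferInstance
  have : Finite (Ad0 p k) := inferInstance
  have : Module.Finite (ZMod p) (Ad0 p k) := Module.Finite.of_finite
  have : Smooth Lall (ad0 p M) := smooth_ad0 p M hM.fin
  have : Module.Finite (ZMod p) ↥(Z1 (Lq p) (rsub (ad0 p M) (Dq p))) := finite_Z1 hp2 hM
  have hB1 : ∀ m : Ad0 p k, d0 (rsub (ad0 p M) (Dq p)) m ∈ Z1 (Lq p) (rsub (ad0 p M) (Dq p)) :=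
    fun m => B1_le_Z1 ⟨m, rfl⟩
  let δ : ↥(W0 p B C) →ₗ[ZMod p] ↥(ZZ p M B C) :=
    LinearMap.codRestrict (ZZ p M B C)
      ((LinearMap.codRestrict (Z1 (Lq p) (rsub (ad0 p M) (Dq p)))
        (d0 (rsub (ad0 p M) (Dq p))) hB1) ∘ₗ (W0 p B C).subtype)
      (fun m => d0_mem_ZZ hM h m.1 m.2 (hB1 m.1))
  let π' : ↥(ZZ p M B C) →ₗ[ZMod p] H1 (Lq p) (rsub (ad0 p M) (Dq p)) :=
    (H1.mk (Lq p) (rsub (ad0 p M) (Dq p))) ∘ₗ (ZZ p M B C).subtype
  have hπ : ∀ b, π' (δ b) = 0 := by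
    intro b
    show H1.mk (Lq p) (rsub (ad0 p M) (Dq p)) ⟨d0 (rsub (ad0 p M) (Dq p)) b.1, hB1 b.1⟩ = 0
    rw [H1.mk_eq_zero_iff]
    exact ⟨b.1, fun g => rfl⟩
  have hrange : LinearMap.range π' = Lred p M B C := by
    show LinearMap.range ((H1.mk (Lq p) (rsub (ad0 p M) (Dq p))) ∘ₗ (ZZ p M B C).subtype) = _
    rw [LinearMap.range_comp, Submodule.range_subtype]
    rfl
  have e0 := finrank_range_add_le δ π' hπ
  rw [hrange] at e0
  have e1 := finrank_ZZ_le hp2 hK hM h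
  have e2 := two_mul_le_finrank_W0 (p := p) h.mul h.mul'
  have hinv : ∀ c : ↥(LinearMap.ker δ), ((W0 p B C).subtype ∘ₗ (LinearMap.ker δ).subtype) c ∈
      H0 (rsub (ad0 p M) (Dq p)) := by
    intro c σ
    have hc : δ c.1 = 0 := LinearMap.mem_ker.1 c.2
    have hc' : d0 (rsub (ad0 p M) (Dq p)) (c.1.1) = 0 :=
      congrArg (fun w : ↥(ZZ p M B C) => ((w : ↥(Z1 (Lq p) (rsub (ad0 p M) (Dq p)))) :
        Dq p → Ad0 p k)) hc
    have := congrFun hc' σ
    exact sub_eq_zero.1 this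
  have e3 := LinearMap.finrank_le_finrank_of_injective
    (f := LinearMap.codRestrict (H0 (rsub (ad0 p M) (Dq p)))
      ((W0 p B C).subtype ∘ₗ (LinearMap.ker δ).subtype) hinv) (by
    intro a b hab
    have : ((a : ↥(W0 p B C)) : Ad0 p k) = ((b : ↥(W0 p B C)) : Ad0 p k) :=
      congrArg (fun w : ↥(H0 (rsub (ad0 p M) (Dq p))) => (w : Ad0 p k)) hab
    exact Subtype.ext (Subtype.ext this))
  omega

end Fermat.Agent.S56.F.Red

end
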