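import Fermat.Agent.S56.F.Red.LinC
import Fermat.Agent.S56.F.Red.Count
import Fermat.Agent.S56.Loc.OrdMain

/-!
# S56 / F / Red / Main : the reducible case of `Target.flat_finrank`, and the case split.

`flat_red`  : if `M|D_p` has a stable line, `finrank Lcond(flat) ≤ h⁰(D_p, ad⁰) + f`.
`flat_split`: the case split; the irreducible case is an hypothesis (export of the Irr team).
-/

set_option autoImplicit false

noncomputable section

namespace Fermat.Agent.S56.F.Red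

open Fermat.Agent.S55 Fermat.Agent.S55.Places ExtCitation Module Polynomial Fermat.Agent.S56.Loc

variable {p : ℕ} [Fact p.Prime] {k : Type} [Field k] [Finite k] [Algebra (ZMod p) k]

theorem flat_red (hp2 : p ≠ 2) (M : GQ →* M2 k) (hM : ResHyp p M)
    (hline : ∃ v : Fin 2 → k, v ≠ 0 ∧ ∀ σ ∈ Dq p, ∃ a : k, (M σ).mulVec v = a • v) :
    finrank (ZMod p) ↥(Lcond p M (fun ρ' => ρ'.DetIsCyclotomic p ∧ ρ'.IsFlatAt p)
        (pPrime p)) ≤
      finrank (ZMod p) ↥(H0 (rsub (ad0 p M) (DqP (pPrime p)))) + finrank (ZMod p) k := by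
  have hK : PeuK p := fun w hw => exists_mem_Ipeu_moving hp2 hw
  have hsm : Smooth Lall (ad0 p M) := smooth_ad0 p M hM.fin
  have : Finite (M2 k) := inferInstance
  have : FiniteDimensional (ZMod p) (Ad0 p k) := Module.Finite.of_finite
  have hfd : FiniteDimensional (ZMod p) (H1 (Lq p) (rsub (ad0 p M) (Dq p))) := loc_fin1 hp2 _
  -- key extraction
  have key : ∀ (ρ' : GaloisRepAdic (DualNumber k)) (z : ↥(Z1 Lall (ad0 p M))),
      ρ'.IsFlatAt p →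
      IsClassOf M ρ' (fun σ => (((z : GQ → Ad0 p k) σ : Ad0 p k) : M2 k)) →
      ∃ B C : M2 k, RedShape p M B C ∧ ∃ m : M2 k, m.trace = 0 ∧
        (∀ σ ∈ Dq p, IsW0 B C
          ((((z : GQ → Ad0 p k) σ : Ad0 p k) : M2 k) - (M σ * m * M σ⁻¹ - m))) ∧
        (∀ σ ∈ Iq p, IsW1 B C
          ((((z : GQ → Ad0 p k) σ : Ad0 p k) : M2 k) - (M σ * m * M σ⁻¹ - m))) ∧
        (∀ σ ∈ Ipeu p,
          (((z : GQ → Ad0 p k) σ : Ad0 p k) : M2 k) - (M σ * m * M σ⁻¹ - m) = 0) := by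
    intro ρ' z hF hc
    obtain ⟨H, hH⟩ := exists_ord_defAct M ρ' _ hc hF
    refine red_data hp2 hM _ ?_ (fun σ => (mem_Ad0 p _).1 ((z : GQ → Ad0 p k) σ).2) hH hline
    intro σ τ
    have h1 := (mem_Z1.1 z.2).1 σ τ
    have h2 := congrArg (fun x : Ad0 p k => (x : M2 k)) h1
    simpa using h2
  by_cases hne : ∃ (ρ' : GaloisRepAdic (DualNumber k)) (z : ↥(Z1 Lall (ad0 p M))),
      (ρ'.DetIsCyclotomic p ∧ ρ'.IsFlatAt p) ∧
      IsClassOf M ρ' (fun σ => (((z : GQ → Ad0 p k) σ : Ad0 p k) : M2 k))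
  · obtain ⟨ρ₀, z₀, ⟨-, hO₀⟩, hc₀⟩ := hne
    obtain ⟨B₀, C₀, h₀, -⟩ := key ρ₀ z₀ hO₀ hc₀
    have hle : Lcond p M (fun ρ' => ρ'.DetIsCyclotomic p ∧ ρ'.IsFlatAt p)
        (pPrime p) ≤ Lred p M B₀ C₀ := by
      refine Submodule.span_le.2 ?_
      rintro x ⟨ρ', z, ⟨-, hO⟩, hc, rfl⟩
      obtain ⟨B', C', h', m, hm, hW0, hW1, hP⟩ := key ρ' z hO hc
      let m' : Ad0 p k := ⟨m, (mem_Ad0 p _).2 hm⟩
      let b : ↥(Z1 (Lq p) (rsub (ad0 p M) (Dq p))) :=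
        ⟨d0 (rsub (ad0 p M) (Dq p)) m', B1_le_Z1 ⟨m', rfl⟩⟩
      refine ⟨(Pair.res Lall (ad0 p M) (Dq p)).z1 z - b, ⟨?_, ?_, ?_⟩, ?_⟩
      · intro σ
        exact (isW0_iff_of_redShape hp2 hM h₀ h' _).2 (hW0 σ σ.2)
      · intro σ hσ
        exact (isW1_iff_of_redShape hp2 hM h₀ h' _).2 (hW1 σ hσ)
      · intro σ hσ
        exact Subtype.ext (hP σ hσ)
      · have e : H1.mk (Lq p) (rsub (ad0 p M) (Dq p))
            ((Pair.res Lall (ad0 p M) (Dq p)).z1 z - b) =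
            H1.mk (Lq p) (rsub (ad0 p M) (Dq p)) ((Pair.res Lall (ad0 p M) (Dq p)).z1 z) := by
          refine (Exact.H1_mk_eq_mk_iff _ _).2 ⟨-m', fun g => ?_⟩
          have e1 : (((Pair.res Lall (ad0 p M) (Dq p)).z1 z - b :
              ↥(Z1 (Lq p) (rsub (ad0 p M) (Dq p)))) : Dq p → Ad0 p k) g =
              ((Pair.res Lall (ad0 p M) (Dq p)).z1 z : Dq p → Ad0 p k) g -
                (rsub (ad0 p M) (Dq p) g m' - m') := rfl
          rw [e1, map_neg]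
          abel
        exact e
    have main : ∀ (L' : Submodule (ZMod p) (H1 (Lq p) (rsub (ad0 p M) (Dq p)))),
        L' ≤ Lred p M B₀ C₀ → finrank (ZMod p) ↥L' ≤
          finrank (ZMod p) ↥(H0 (rsub (ad0 p M) (Dq p))) + finrank (ZMod p) k := fun L' hL =>
      (Submodule.finrank_mono hL).trans (finrank_Lred_le hp2 hK hM h₀)
    exact main _ hle
  · have : Lcond p M (fun ρ' => ρ'.DetIsCyclotomic p ∧ ρ'.IsFlatAt p)
        (pPrime p) = ⊥ := by
      rw [eq_bot_iff]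
      refine Submodule.span_le.2 ?_
      rintro x ⟨ρ', z, hP, hc, rfl⟩
      exact absurd ⟨ρ', z, hP, hc⟩ hne
    rw [this, finrank_bot]
    exact Nat.zero_le _

/-- the case split. -/
theorem flat_split (hp2 : p ≠ 2) (M : GQ →* M2 k) (hM : ResHyp p M)
    (hirr : (∀ v : Fin 2 → k, v ≠ 0 → ∃ σ ∈ Dq p, ∀ a : k, (M σ).mulVec v ≠ a • v) →
      finrank (ZMod p) ↥(Lcond p M (fun ρ' => ρ'.DetIsCyclotomic p ∧ ρ'.IsFlatAt p)
        (pPrime p)) ≤
      finrank (ZMod p) ↥(H0 (rsub (ad0 p M) (DqP (pPrime p)))) + finrank (ZMod p) k) :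
    finrank (ZMod p) ↥(Lcond p M (fun ρ' => ρ'.DetIsCyclotomic p ∧ ρ'.IsFlatAt p)
        (pPrime p)) ≤
      finrank (ZMod p) ↥(H0 (rsub (ad0 p M) (DqP (pPrime p)))) + finrank (ZMod p) k := by
  by_cases hline : ∃ v : Fin 2 → k, v ≠ 0 ∧ ∀ σ ∈ Dq p, ∃ a : k, (M σ).mulVec v = a • v
  · exact flat_red hp2 M hM hline
  · refine hirr fun v hv => ?_
    by_contra hcon
    push Not at hcon
    exact hline ⟨v, hv, hcon⟩

end Fermat.Agent.S56.F.Red

end
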