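import Fermat.Agent.S56.F.Red.Defs
import Fermat.Agent.S56.Loc.OrdDim

/-!
# S56 / F / Red / CountMat : matrix facts for a `RedShape`.        TASK S56/FR-CountMat

`R σ := C * M σ * B = !![a, b; 0, d]` for `σ ∈ D`, `a d = det (M σ) = ω σ` (`hM.det`, `Matrix.det_fin_two`, `det (C M B) = det M` because `C B = 1`: `Matrix.det_mul`, `mul_comm`),
`R σ * R σ⁻¹ = 1` (as in `Loc.OrdDim_RR`: `C M σ (B C) M σ⁻¹ B`), `C (M σ X M σ⁻¹) B = R σ (C X B) R σ⁻¹` (as in `Loc.OrdDim_conj`), `psiOf M B C σ = (d⁻¹) ^ 2`.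
All entry computations: `Matrix.mul_apply`, `Fin.sum_univ_two`; write `R' := R σ⁻¹`; from `R R' = 1` and `R 1 0 = 0`: `d * R' 1 0 = 0`, `d * R' 1 1 = 1`, so `d ≠ 0`, `R' 1 0 = 0`, `R' 1 1 = d⁻¹`, `a * R' 0 0 = 1`.
* `d_mul`: `R (σ τ) = R σ * R τ` (insert `B * C = 1`), entry `(1,1)` with `R σ 1 0 = 0`.
* `psiOf_urChar`: `mul` from `d_mul`; `inert` from `h.inert`; `level`: `Loc.isOpen_ker_of_fin M hM.fin` gives `U` open with `M = 1` on `U`; `Lall_isOpen_iff` gives `E`; then `R σ = C * 1 * B = 1`.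
-/

set_option autoImplicit false

noncomputable section

namespace Fermat.Agent.S56.F.Red

open Fermat.Agent.S55 Fermat.Agent.S55.Places ExtCitation Module Fermat.Agent.S56.Loc

variable {p : ℕ} [Fact p.Prime] {k : Type} [Field k] [Algebra (ZMod p) k]
variable {M : GQ →* M2 k} {B C : M2 k}

/-- the unramified character `ψ = d⁻²`. -/
def psiOf (M : GQ →* M2 k) (B C : M2 k) (σ : GQ) : k := (((C * M σ * B) 1 1)⁻¹) ^ 2

omit [Fact p.Prime] [Algebra (ZMod p) k] in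
lemma CountMat_inv_entries (R R' : M2 k) (hRR : R * R' = 1) (h10 : R 1 0 = 0) :
    R 1 1 ≠ 0 ∧ R' 1 0 = 0 ∧ R 1 1 * R' 1 1 = 1 ∧ R 0 0 * R' 0 0 = 1 := by
  have e00 := congrFun (congrFun hRR 0) 0
  have e10 := congrFun (congrFun hRR 1) 0
  have e11 := congrFun (congrFun hRR 1) 1
  simp only [Matrix.mul_apply, Fin.sum_univ_two, h10, zero_mul, zero_add,
    Matrix.one_apply_eq] at e00 e10 e11
  have e10' : R 1 1 * R' 1 0 = 0 := by simpa using e10
  have hz : R 1 1 ≠ 0 := by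
    intro h
    rw [h, zero_mul] at e11
    exact zero_ne_one e11
  have hc : R' 1 0 = 0 := (mul_eq_zero.mp e10').resolve_left hz
  rw [hc, mul_zero, add_zero] at e00
  exact ⟨hz, hc, e11, e00⟩

omit [Algebra (ZMod p) k] in
lemma CountMat_R_mul (h : RedShape p M B C) (σ τ : GQ) :
    C * M (σ * τ) * B = (C * M σ * B) * (C * M τ * B) := by
  calc C * M (σ * τ) * B = C * (M σ * 1 * M τ) * B := by rw [mul_one, map_mul]
    _ = (C * M σ * B) * (C * M τ * B) := by rw [← h.mul]; simp only [mul_assoc]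

omit [Algebra (ZMod p) k] in
lemma CountMat_RR (h : RedShape p M B C) (σ : GQ) :
    (C * M σ * B) * (C * M σ⁻¹ * B) = 1 := by
  rw [← CountMat_R_mul h, mul_inv_cancel, map_one, mul_one, h.mul']

omit [Algebra (ZMod p) k] in
lemma CountMat_conj (h : RedShape p M B C) (σ : GQ) (X : M2 k) :
    C * (M σ * X * M σ⁻¹) * B = (C * M σ * B) * (C * X * B) * (C * M σ⁻¹ * B) := by
  calc C * (M σ * X * M σ⁻¹) * B = C * (M σ * 1 * X * 1 * M σ⁻¹) * B := by
        rw [mul_one, mul_one]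
    _ = (C * M σ * B) * (C * X * B) * (C * M σ⁻¹ * B) := by
        rw [← h.mul]; simp only [mul_assoc]

omit [Fact p.Prime] [Algebra (ZMod p) k] in
/-- conjugation of an upper triangular matrix by an upper triangular matrix. -/
lemma CountMat_conj_entries (R R' Y : M2 k) (hRR : R * R' = 1) (h10 : R 1 0 = 0)
    (y10 : Y 1 0 = 0) :
    (R * Y * R') 1 0 = 0 ∧ (R * Y * R') 0 0 = Y 0 0 ∧ (R * Y * R') 1 1 = Y 1 1 := by
  obtain ⟨-, hc, e11, e00⟩ := CountMat_inv_entries R R' hRR h10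
  refine ⟨?_, ?_, ?_⟩ <;>
    simp only [Matrix.mul_apply, Fin.sum_univ_two, h10, hc, y10, zero_mul, mul_zero, add_zero,
      zero_add]
  · linear_combination Y 0 0 * e00
  · linear_combination Y 1 1 * e11

omit [Algebra (ZMod p) k] in
theorem d_mul (h : RedShape p M B C) {σ τ : GQ} (hσ : σ ∈ Dq p) :
    (C * M (σ * τ) * B) 1 1 = (C * M σ * B) 1 1 * (C * M τ * B) 1 1 := by
  rw [CountMat_R_mul h, Matrix.mul_apply, Fin.sum_univ_two, h.low σ hσ, zero_mul, zero_add]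

omit [Algebra (ZMod p) k] in
theorem d_ne_zero (h : RedShape p M B C) {σ : GQ} (hσ : σ ∈ Dq p) : (C * M σ * B) 1 1 ≠ 0 :=
  (CountMat_inv_entries _ _ (CountMat_RR h σ) (h.low σ hσ)).1

theorem a_mul_d (hM : ResHyp p M) (h : RedShape p M B C) {σ : GQ} (hσ : σ ∈ Dq p) :
    (C * M σ * B) 0 0 * (C * M σ * B) 1 1 = omK p k σ := by
  have h1 : (C * M σ * B).det = (M σ).det := by
    rw [Matrix.det_mul, Matrix.det_mul, mul_comm C.det, mul_assoc, ← Matrix.det_mul, h.mul',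
      Matrix.det_one, mul_one]
  rw [Matrix.det_fin_two, h.low σ hσ, mul_zero, sub_zero, hM.det] at h1
  exact h1

theorem psiOf_urChar (hM : ResHyp p M) (h : RedShape p M B C) : UrChar p (psiOf M B C) := by
  refine ⟨fun σ hσ τ _ => ?_, fun σ hσ => ?_, ?_⟩
  · rw [psiOf, psiOf, psiOf, d_mul h hσ, mul_inv, mul_pow]
  · rw [psiOf, h.inert σ hσ, inv_one, one_pow]
  · obtain ⟨U, hU, -, hM1⟩ := Loc.isOpen_ker_of_fin M hM.fin
    obtain ⟨E, hE, hle⟩ := Lall_isOpen_iff.1 hU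
    refine ⟨E, hE, fun σ _ hσE => ?_⟩
    rw [psiOf, hM1 σ (hle hσE), mul_one, h.mul', Matrix.one_apply_eq, inv_one, one_pow]

/-- conjugation by `M σ`, `σ ∈ D`, preserves `W⁰` and the diagonal. -/
theorem conj_W0 (h : RedShape p M B C) {σ : GQ} (hσ : σ ∈ Dq p) {X : M2 k} (hX : IsW0 B C X) :
    IsW0 B C (M σ * X * M σ⁻¹) ∧
      (C * (M σ * X * M σ⁻¹) * B) 0 0 = (C * X * B) 0 0 ∧
      (C * (M σ * X * M σ⁻¹) * B) 1 1 = (C * X * B) 1 1 := by
  unfold IsW0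
  rw [CountMat_conj h]
  exact CountMat_conj_entries _ _ _ (CountMat_RR h σ) (h.low σ hσ) hX

/-- conjugation by `M σ`, `σ ∈ D`, acts on `W¹` by `ω ψ`. -/
theorem conj_W1 (hM : ResHyp p M) (h : RedShape p M B C) {σ : GQ} (hσ : σ ∈ Dq p) {X : M2 k}
    (hX : IsW1 B C X) :
    IsW1 B C (M σ * X * M σ⁻¹) ∧
      (C * (M σ * X * M σ⁻¹) * B) 0 1 = omK p k σ * psiOf M B C σ * (C * X * B) 0 1 := by
  obtain ⟨x00, x10, x11⟩ := hX
  obtain ⟨c10, c00, c11⟩ := conj_W0 h hσ (X := X) x10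
  refine ⟨⟨by rw [c00, x00], c10, by rw [c11, x11]⟩, ?_⟩
  obtain ⟨hz, hc, e11, -⟩ := CountMat_inv_entries _ _ (CountMat_RR h σ) (h.low σ hσ)
  have hinv : (C * M σ⁻¹ * B) 1 1 = ((C * M σ * B) 1 1)⁻¹ := eq_inv_of_mul_eq_one_right e11
  rw [CountMat_conj h, ← a_mul_d hM h hσ, psiOf]
  simp only [Matrix.mul_apply (M := (C * M σ * B) * (C * X * B)),
    Matrix.mul_apply (M := C * M σ * B) (N := C * X * B), Fin.sum_univ_two, x00, x10, x11, hinv,
    mul_zero, zero_mul, add_zero, zero_add]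
  field_simp

/-- for `σ ∈ I`, `M σ X M σ⁻¹ - X ∈ W¹` if `X ∈ W⁰`. -/
theorem conj_sub_W1 (h : RedShape p M B C) {σ : GQ} (hσ : σ ∈ Dq p) {X : M2 k}
    (hX : IsW0 B C X) : IsW1 B C (M σ * X * M σ⁻¹ - X) := by
  obtain ⟨c10, c00, c11⟩ := conj_W0 h hσ hX
  unfold IsW0 at c10 hX
  unfold IsW1
  rw [mul_sub, sub_mul]
  refine ⟨?_, ?_, ?_⟩
  · rw [Matrix.sub_apply, c00, sub_self]
  · rw [Matrix.sub_apply, c10, hX, sub_self]
  · rw [Matrix.sub_apply, c11, sub_self]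

omit [Fact p.Prime] [Algebra (ZMod p) k] in
/-- a matrix is determined by its entries in the basis `B`. -/
theorem eq_zero_of_entries (hBC : B * C = 1) {X : M2 k} (hX : IsW1 B C X)
    (h01 : (C * X * B) 0 1 = 0) : X = 0 := by
  obtain ⟨x00, x10, x11⟩ := hX
  have h0 : C * X * B = 0 := by
    ext i j
    fin_cases i <;> fin_cases j
    · exact x00
    · exact h01
    · exact x10
    · exact x11
  have h1 := Loc.OrdDim_sandwich hBC X
  rw [h0, mul_zero, zero_mul] at h1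
  exact h1.symm

end Fermat.Agent.S56.F.Red

end
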