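import Fermat.Agent.S56.F.Red.Defs

/-!
# S56 / F / Red / Semilin : a Frobenius-semilinear count.        TASK S56/FR-Semilin

`Gsp p κ a = {G : k → κ additive | ∀ t, G (a t) ^ p = G t}` has `𝔽_p`-dimension `≤ f = [k : 𝔽_p]`  (κ ANY field of characteristic `p`, possibly infinite).

PROOF A ("easy half of Lang").  `V := k →ₗ[ZMod p] κ` is a `κ`-vector space of dimension `f` (`Module.finrank_linearMap`, or via a basis of `k`: `V ≃ (Fin f → κ)`).
 An additive `G` is `ZMod p`-linear (`AddMonoidHom.toZModLinearMap`).  CLAIM: elements `G₁..G_n` of `Gsp` that are linearly independent over `ZMod p` are linearly independent over `κ`.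
 [Take a nontrivial `κ`-relation `∑ c_i G_i = 0` with the minimal number of nonzero terms, normalised by `c_1 = 1`.  Evaluate at `a t` and raise to the `p`-th power (`add_pow_char`, `sum_pow_char`):
 `∑ c_i ^ p G_i(t) = 0`.  Subtract: a shorter relation, so `c_i ^ p = c_i` for all `i`, i.e. `c_i` is in the prime field (the roots of `X ^ p - X` are the `p` elements of `ZMod p`), contradiction.]
 Hence every `ZMod p`-independent family in `Gsp` has `≤ f` elements: `Module.Finite` + `finrank ≤ f` (e.g. `LinearIndependent`-cardinality bounds: `Module.finite_of_...`, `finrank_le_of_...`, or `rank_le`).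
PROOF B (explicit).  `a = 0` ⇒ `G = 0`.  Otherwise `k₀ = 𝔽_p(a)`, `P = minpoly` of degree `d`, `e_1..e_m` a `k₀`-basis of `k`: `G` is determined by `y_j = G(e_j)` (Frobenius is injective on `κ`, `G(a^i e_j)^(p^i) = y_j`),
 and `∑_i c_i y_j^(p^(d-i)) = 0`, a nonzero polynomial of degree `p^d`.
Choose whichever you like; only the statement matters.
-/

set_option autoImplicit false

noncomputable section

namespace Fermat.Agent.S56.F.Red

open Module

variable {p : ℕ} [Fact p.Prime] {k : Type} [Field k] [Algebra (ZMod p) k] [Finite k]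

omit [Finite k] in
/-- an element of a field of characteristic `p` fixed by Frobenius comes from `ZMod p`. -/
lemma Semilin_exists_zmod (κ : Type) [Field κ] [CharP κ p] [Algebra (ZMod p) κ] {c : κ}
    (hc : c ^ p = c) : ∃ n : ZMod p, algebraMap (ZMod p) κ n = c := by
  have h1 : c ∈ (⊥ : Subfield κ) := (Subfield.mem_bot_iff_pow_eq_self κ p).2 hc
  obtain ⟨n, hn⟩ := (mem_bot_iff_intCast p κ).1 h1
  exact ⟨(n : ZMod p), by rw [map_intCast, hn]⟩

omit [Finite k] in
/-- `𝔽_p`-independent Frobenius-fixed vectors are `κ`-independent. -/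
lemma Semilin_indep (κ : Type) [Field κ] [CharP κ p] [Algebra (ZMod p) κ] (a : k)
    {ι : Type} (v : ι → (k →ₗ[ZMod p] κ)) (hv : ∀ i t, v i (a * t) ^ p = v i t)
    (s : Finset ι) (h : LinearIndepOn (ZMod p) v (s : Set ι)) :
    LinearIndepOn κ v (s : Set ι) := by
  classical
  induction s using Finset.induction_on with
  | empty => simp
  | insert i s hi ih =>
    rw [Finset.coe_insert] at h ⊢
    have hi' : i ∉ (s : Set ι) := by simpa using hi
    rw [linearIndepOn_insert hi'] at h ⊢
    obtain ⟨h1, h2⟩ := h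
    have ih' := ih h1
    refine ⟨ih', fun hmem => h2 ?_⟩
    obtain ⟨c, hc⟩ := (Submodule.mem_span_image_finset_iff_exists_fun' κ).1 hmem
    -- apply the semilinear operator
    have hc2 : ∑ j ∈ s, (c j) ^ p • v j = v i := by
      ext t
      have e1 : v i (a * t) = ∑ j ∈ s, c j * v j (a * t) := by
        rw [← hc]
        simp [LinearMap.sum_apply]
      have e2 := hv i t
      rw [e1, sum_pow_char] at e2
      rw [← e2]
      simp [LinearMap.sum_apply, mul_pow, hv]
    have hc3 : ∑ j ∈ s, ((c j) ^ p - c j) • v j = 0 := by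
      rw [Finset.sum_congr rfl (fun j _ => sub_smul (c j ^ p) (c j) (v j)),
        Finset.sum_sub_distrib, hc, hc2, sub_self]
    have hc4 := linearIndepOn_finset_iff.1 ih' _ hc3
    have hc5 : ∀ j ∈ s, ∃ n : ZMod p, algebraMap (ZMod p) κ n = c j := fun j hj =>
      Semilin_exists_zmod κ (sub_eq_zero.1 (hc4 j hj))
    choose! n hn using hc5
    refine (Submodule.mem_span_image_finset_iff_exists_fun' (ZMod p)).2 ⟨n, ?_⟩
    rw [← hc]
    refine Finset.sum_congr rfl fun j hj => ?_
    rw [← hn j hj]
    ext t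
    simp [Algebra.smul_def]

omit [Finite k] in
/-- the embedding of `Gsp` into the `κ`-vector space of `𝔽_p`-linear maps. -/
def SemilinEmb (κ : Type) [Field κ] [CharP κ p] [Algebra (ZMod p) κ] (a : k) :
    ↥(Gsp p κ a) →ₗ[ZMod p] (k →ₗ[ZMod p] κ) where
  toFun G := (AddMonoidHom.mk' (G : k → κ) G.2.1).toZModLinearMap p
  map_add' G G' := by ext t; rfl
  map_smul' c G := by ext t; rfl

theorem Gsp_finrank_le (κ : Type) [Field κ] [CharP κ p] [Algebra (ZMod p) κ] (a : k) :
    Module.Finite (ZMod p) ↥(Gsp p κ a) ∧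
      finrank (ZMod p) ↥(Gsp p κ a) ≤ finrank (ZMod p) k := by
  classical
  have : Module.Finite (ZMod p) k := Module.Finite.of_finite
  have hker : LinearMap.ker (SemilinEmb κ a) = ⊥ := by
    rw [LinearMap.ker_eq_bot]
    intro G G' h
    ext t
    exact congrArg (fun f : k →ₗ[ZMod p] κ => f t) h
  have hrank : Module.rank (ZMod p) ↥(Gsp p κ a) ≤ (finrank (ZMod p) k : ℕ) := by
    refine rank_le fun s hs => ?_
    have h1 : LinearIndepOn (ZMod p) (SemilinEmb κ a) (s : Set ↥(Gsp p κ a)) :=
      LinearIndependent.map' hs (SemilinEmb κ a) hker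
    have h2 := Semilin_indep κ a (SemilinEmb κ a) (fun G t => G.2.2 t) s h1
    have h3 := LinearIndependent.fintype_card_le_finrank h2
    rw [Module.finrank_linearMap_self] at h3
    simpa using h3
  have hfin : Module.Finite (ZMod p) ↥(Gsp p κ a) :=
    Module.rank_lt_aleph0_iff.1 (lt_of_le_of_lt hrank (Cardinal.natCast_lt_aleph0))
  exact ⟨hfin, finrank_le_of_rank_le hrank⟩

end Fermat.Agent.S56.F.Red

end
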