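import Fermat.Agent.S56.F.Red.Gamma
import Fermat.Agent.S56.F.Red.Semilin
import Fermat.Agent.S56.Loc.Arith3

/-!
# S56 / F / Red / ZpeuCount : `dim Zpeu ≤ 2 f`.        TASK S56/FR-ZpeuCount

* `eq_zero_of_vanish` (Sah): let `g ∈ D`.  `ι := g τ₀ g⁻¹ τ₀⁻¹ ∈ I` (`Iq_conj_mem`, `mul_mem`, `inv_mem`), `cycloChar p ι = 1` (commutative target), so `c ι = 0`; `g τ₀ = ι (τ₀ g)`.
  `c (g τ₀) = c g + χ g c τ₀ = c g`;  `c (ι (τ₀ g)) = c ι + χ ι c (τ₀ g) = χ ι (c τ₀ + χ τ₀ c g) = χ τ₀ c g` with `χ ι = ω ι ψ ι = 1`, `χ τ₀ = ω τ₀` (`ψ = 1` on `I`).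
  So `(1 - ω τ₀) c g = 0`, `ω τ₀ ≠ 1` in `k` (`algebraMap (ZMod p) k` injective, `Units.ext`).  Outside `D`: `c = 0` by definition.
* `exists_lam`: `k ≠ 0` is a finite dimensional space: take any `lam` and `s` with `lam s ≠ 0` (e.g. `Module.Dual` separation `Module.forall_dual_apply_eq_zero_iff (ZMod p) (1 : k)`, or a basis coordinate);
  if `x ≠ 0` take `t = s * x⁻¹`.
* `finrank_Zpeu_le`: `φ` from `exists_isFrob p`, `τ₀` from `exists_mem_Ip_cycloChar_ne_one hp2`, `lam` from `exists_lam`, `Γ` from `exists_Gamma`.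
  `Φ : Zpeu →ₗ k × Gsp`, `c ↦ (c τ₀, Γ c)` (`LinearMap.prod ((LinearMap.proj τ₀).comp (Submodule.subtype _)) Γ`) is injective (`Gamma_ker`, `eq_zero_of_vanish`).
  Target finite of finrank `≤ f + f` (`Gsp_finrank_le`, `Module.finrank_prod`); `Module.Finite.of_injective`, `LinearMap.finrank_le_finrank_of_injective`.
-/

set_option autoImplicit false

noncomputable section

namespace Fermat.Agent.S56.F.Red

open Fermat.Agent.S55 Fermat.Agent.S55.Places ExtCitation Module Fermat.Agent.S56.Loc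

variable {p : ℕ} [Fact p.Prime] {k : Type} [Field k] [Algebra (ZMod p) k]
variable {ψ : GQ → k} {c : GQ → k}

theorem eq_zero_of_vanish (hψ : UrChar p ψ) (hc : c ∈ Zpeu p ψ)
    (h : ∀ g ∈ Iq p, cycloChar p g = 1 → c g = 0) {τ₀ : GQ} (hτ₀ : τ₀ ∈ Iq p)
    (hω : cycloChar p τ₀ ≠ 1) (h0 : c τ₀ = 0) : c = 0 := by
  obtain ⟨h1, h2, -, -⟩ := mem_Zpeu.mp hc
  funext g
  by_cases hg : g ∈ Dq p
  swap
  · exact h1 g hg
  have hτD : τ₀ ∈ Dq p := Iq_le_Dq p hτ₀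
  have hι : g * τ₀ * g⁻¹ * τ₀⁻¹ ∈ Iq p := mul_mem (Iq_conj_mem p hg hτ₀) (inv_mem hτ₀)
  have hιD : g * τ₀ * g⁻¹ * τ₀⁻¹ ∈ Dq p := Iq_le_Dq p hι
  have hιc : cycloChar p (g * τ₀ * g⁻¹ * τ₀⁻¹) = 1 := by
    rw [map_mul, map_mul, map_mul, map_inv, map_inv, mul_comm (cycloChar p g),
      mul_inv_cancel_right, mul_inv_cancel]
  have hcι : c (g * τ₀ * g⁻¹ * τ₀⁻¹) = 0 := h _ hι hιc
  have hgr : g * τ₀ = (g * τ₀ * g⁻¹ * τ₀⁻¹) * (τ₀ * g) := by group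
  have e1 : c (g * τ₀) = c g := by rw [h2 g hg τ₀ hτD, h0, mul_zero, add_zero]
  have hωι : omK p k (g * τ₀ * g⁻¹ * τ₀⁻¹) = 1 := by
    unfold omK
    rw [hιc, Units.val_one, map_one]
  have e2 : c (g * τ₀) = omK p k τ₀ * c g := by
    rw [hgr, h2 _ hιD _ (mul_mem hτD hg), hcι, hωι, hψ.inert _ hι, h2 τ₀ hτD g hg, h0,
      hψ.inert τ₀ hτ₀]
    ring
  have hne : omK p k τ₀ ≠ 1 := by
    intro h3
    apply hω
    unfold omK at h3
    rw [← map_one (algebraMap (ZMod p) k)] at h3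
    exact Units.ext ((algebraMap (ZMod p) k).injective h3)
  have e3 : (1 - omK p k τ₀) * c g = 0 := by
    rw [sub_mul, one_mul, ← e2, e1, sub_self]
  rcases mul_eq_zero.mp e3 with h4 | h4
  · exact absurd (sub_eq_zero.mp h4).symm hne
  · exact h4

theorem exists_lam [Finite k] :
    ∃ lam : k →ₗ[ZMod p] ZMod p, ∀ x : k, (∀ t, lam (t * x) = 0) → x = 0 := by
  have h1 : ¬ ∀ φ : Module.Dual (ZMod p) k, φ 1 = 0 := by
    rw [Module.forall_dual_apply_eq_zero_iff (ZMod p) (1 : k)]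
    exact one_ne_zero
  push Not at h1
  obtain ⟨lam, hlam⟩ := h1
  refine ⟨lam, fun x hx => ?_⟩
  by_contra hx0
  apply hlam
  rw [← inv_mul_cancel₀ hx0]
  exact hx _

theorem finrank_Zpeu_le [Finite k] (hp2 : p ≠ 2) (hK : PeuK p) (hψ : UrChar p ψ) :
    Module.Finite (ZMod p) ↥(Zpeu p ψ) ∧
      finrank (ZMod p) ↥(Zpeu p ψ) ≤ 2 * finrank (ZMod p) k := by
  obtain ⟨φ, hφ⟩ := exists_isFrob p
  obtain ⟨τ₀, hτ₀, hω⟩ := exists_mem_Ip_cycloChar_ne_one (p := p) hp2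
  obtain ⟨lam, hlam⟩ := exists_lam (p := p) (k := k)
  obtain ⟨Γ, hΓ⟩ := exists_Gamma hK hψ hφ lam
  obtain ⟨hfin, hrk⟩ := Gsp_finrank_le (p := p) (k := k) (ResidueKq p) (ψ φ)
  have hinj : Function.Injective
      (LinearMap.prod ((LinearMap.proj τ₀).comp (Submodule.subtype (Zpeu p ψ))) Γ) := by
    rw [← LinearMap.ker_eq_bot, LinearMap.ker_eq_bot']
    intro c hc
    have hc1 := congrArg Prod.fst hc
    have hc2 : Γ c = 0 := congrArg Prod.snd hc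
    have h0 : (c : GQ → k) τ₀ = 0 := hc1
    have h1 : ∀ t, gam p φ (Wker p ψ hψ) (yOf p lam t (c : GQ → k)) = 0 := by
      intro t
      rw [← hΓ c t, hc2]
      rfl
    have h2 := Gamma_ker hp2 hK hψ hφ lam hlam c.2 h1
    exact Subtype.ext (eq_zero_of_vanish hψ c.2 h2 hτ₀ hω h0)
  refine ⟨Module.Finite.of_injective _ hinj, ?_⟩
  have h3 := LinearMap.finrank_le_finrank_of_injective hinj
  rw [Module.finrank_prod] at h3
  omega

end Fermat.Agent.S56.F.Red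

end
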