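import Fermat.Agent.S56.F.Red.CountMat
import Fermat.Agent.S56.F.Red.ZpeuCount
import Fermat.Agent.S56.Loc.Arith1

/-!
# S56 / F / Red / CountZ : `dim ZZ ≤ 3 f`.

TASK S56/FR-CountZA : `alpha_add`, `isW1_of_alpha_frob`.     TASK S56/FR-CountZB : `cOf_mem_Zpeu`, `finite_Z1`, `finrank_ZZ_le`.

`z ∈ ZZ p M B C`; cocycle identity (`mem_Z1`, `z.1.2`): `z (σ τ) = rsub (ad0 p M) (Dq p) σ (z τ) + z σ`, and `((ad0 p M σ X : Ad0 p k) : M2 k) = M σ * X * M σ⁻¹` (`ad0_apply_coe`).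
* `alpha_add`: `conj_W0` (diagonal preserved), `Matrix.add_apply`, `mul_add`, `add_mul`.
* `isW1_of_alpha_frob`: `α σ := (C * z σ * B) 1 1` is a homomorphism `f : ↥(Dq p) →* Multiplicative k` (`alpha_add`), trivial on `IqD p` (`IsW1` on `I`), with open kernel:
  `z` is a level cochain: `∃ U` open, `z (g s) = z g` for `s ∈ U`; with `g = 1`: `z s = z 1 = 0`  (`z 1 = 0` from the cocycle identity), so `U ≤ ker f` (`Levels.isOpen_mono`).
  `(procyclicMod_Dq hφ).exists_pow_eq f _ _ σ : f σ = f ⟨φ, _⟩ ^ n = 1`.  So `α = 0`; trace zero (`(mem_Ad0 p _).1 (z σ).2`; `trace (C X B) = trace X` by `Matrix.trace_mul_comm`, `C B`... `Matrix.trace_fin_two`)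
  gives the entry `(0,0) = 0`; entry `(1,0) = 0` is `IsW0`.
* `cOf_mem_Zpeu`: `dif_pos`/`dif_neg`; cocycle identity + `conj_W1`; level as above: `U` open in `Lq p = Lall.sub (Dq p)`: by definition `∃ U' : Subgroup GQ, Lall.IsOpen U' ∧ U'.comap (Dq p).subtype ≤ U`, `Lall_isOpen_iff` gives `E`.
* `finite_Z1`: `Module.Finite.of_submodule_quotient` with `N := (B1 ρ).comap (Z1 ..).subtype` (finite: injects into `B1 ρ = range (d0 ρ)`, `Ad0 p k` finite), quotient `= H1`, finite by `loc_fin1 hp2`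
  (`Smooth`: `smooth_ad0 p M hM.fin` + the instance `Smooth.rsub`, see Loc/OrdMain.lean).
* `finrank_ZZ_le`: `A : ZZ →ₗ k`, `z ↦ (C * z ⟨φ,_⟩ * B) 1 1`;  `finrank ZZ = finrank (range A) + finrank (ker A)` (`LinearMap.finrank_range_add_finrank_ker`), `finrank (range A) ≤ f`;
  `ker A →ₗ Zpeu p (psiOf M B C)`, `z ↦ ⟨cOf B C z, cOf_mem_Zpeu ..⟩` is linear and injective (`eq_zero_of_entries`), `finrank_Zpeu_le`.
-/

set_option autoImplicit false

noncomputable section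

namespace Fermat.Agent.S56.F.Red

open Fermat.Agent.S55 Fermat.Agent.S55.Places ExtCitation Module Fermat.Agent.S56.Loc
open scoped Classical

variable {p : ℕ} [Fact p.Prime] {k : Type} [Field k] [Algebra (ZMod p) k]
variable {M : GQ →* M2 k} {B C : M2 k}

/-- the upper right entry of a cochain, extended by zero. -/
def cOf (B C : M2 k) (z : Dq p → Ad0 p k) : GQ → k :=
  fun σ => if h : σ ∈ Dq p then (C * ((z ⟨σ, h⟩ : Ad0 p k) : M2 k) * B) 0 1 else 0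

/-! ### TASK S56/FR-CountZA -/

theorem alpha_add (h : RedShape p M B C) (z : ↥(Z1 (Lq p) (rsub (ad0 p M) (Dq p))))
    (hz : z ∈ ZZ p M B C) (σ τ : Dq p) :
    (C * (((z : Dq p → Ad0 p k) (σ * τ) : Ad0 p k) : M2 k) * B) 1 1 =
      (C * (((z : Dq p → Ad0 p k) σ : Ad0 p k) : M2 k) * B) 1 1 +
        (C * (((z : Dq p → Ad0 p k) τ : Ad0 p k) : M2 k) * B) 1 1 := by
  have hcoc := (mem_Z1.1 z.2).1 σ τ
  have h1 : (((z : Dq p → Ad0 p k) (σ * τ) : Ad0 p k) : M2 k)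
      = M (σ : GQ) * (((z : Dq p → Ad0 p k) τ : Ad0 p k) : M2 k) * M (σ : GQ)⁻¹
        + (((z : Dq p → Ad0 p k) σ : Ad0 p k) : M2 k) := by
    rw [hcoc]
    rfl
  rw [h1, mul_add, add_mul, Matrix.add_apply, (conj_W0 h σ.2 (hz.1 τ)).2.2, add_comm]

theorem isW1_of_alpha_frob (h : RedShape p M B C) {φ : GQ} (hφ : IsFrob p φ)
    (z : ↥(Z1 (Lq p) (rsub (ad0 p M) (Dq p)))) (hz : z ∈ ZZ p M B C)
    (h0 : (C * (((z : Dq p → Ad0 p k) ⟨φ, hφ.1⟩ : Ad0 p k) : M2 k) * B) 1 1 = 0) :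
    ∀ σ : Dq p, IsW1 B C (((z : Dq p → Ad0 p k) σ : Ad0 p k) : M2 k) := by
  have hz1 : (z : Dq p → Ad0 p k) 1 = 0 := by
    have := (mem_Z1.1 z.2).1 1 1
    rw [mul_one, map_one, Module.End.one_apply] at this
    exact left_eq_add.mp this
  let f : ↥(Dq p) →* Multiplicative k :=
    { toFun := fun σ => Multiplicative.ofAdd
        ((C * (((z : Dq p → Ad0 p k) σ : Ad0 p k) : M2 k) * B) 1 1)
      map_one' := by
        rw [hz1]
        simp
      map_mul' := fun σ τ => by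
        rw [alpha_add h z hz σ τ]
        rfl }
  have hfapp : ∀ σ, f σ = Multiplicative.ofAdd
      ((C * (((z : Dq p → Ad0 p k) σ : Ad0 p k) : M2 k) * B) 1 1) := fun _ => rfl
  have hopen : (Lq p).IsOpen f.ker := by
    obtain ⟨U, hU, hUz⟩ := (mem_Z1.1 z.2).2
    refine (Lq p).isOpen_mono hU (fun s hs => ?_)
    rw [MonoidHom.mem_ker, hfapp]
    have := hUz 1 s hs
    rw [one_mul, hz1] at this
    rw [this]
    simp
  have hI : IqD p ≤ f.ker := by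
    intro s hs
    rw [MonoidHom.mem_ker, hfapp, (hz.2.1 s (Subgroup.mem_subgroupOf.1 hs)).2.2]
    rfl
  intro σ
  obtain ⟨n, hn⟩ := (procyclicMod_Dq hφ).exists_pow_eq f hopen hI σ
  have hfφ : f ⟨φ, hφ.1⟩ = 1 := by
    rw [hfapp, h0]
    rfl
  rw [hfφ, one_pow, hfapp] at hn
  have h11 : (C * (((z : Dq p → Ad0 p k) σ : Ad0 p k) : M2 k) * B) 1 1 = 0 := hn
  have htr : (C * (((z : Dq p → Ad0 p k) σ : Ad0 p k) : M2 k) * B).trace = 0 := by
    rw [Matrix.trace_mul_comm, ← mul_assoc, h.mul, one_mul]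
    exact (mem_Ad0 p _).1 ((z : Dq p → Ad0 p k) σ).2
  rw [Matrix.trace_fin_two, h11, add_zero] at htr
  exact ⟨htr, hz.1 σ, h11⟩

/-! ### TASK S56/FR-CountZB -/

theorem CountZ_cOf_of_mem (z : Dq p → Ad0 p k) {σ : GQ} (hσ : σ ∈ Dq p) :
    cOf B C z σ = (C * ((z ⟨σ, hσ⟩ : Ad0 p k) : M2 k) * B) 0 1 := by
  unfold cOf
  rw [dif_pos hσ]

theorem CountZ_cOf_of_notMem (z : Dq p → Ad0 p k) {σ : GQ} (hσ : σ ∉ Dq p) :
    cOf B C z σ = 0 := by
  unfold cOf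
  rw [dif_neg hσ]

theorem cOf_mem_Zpeu (hM : ResHyp p M) (h : RedShape p M B C)
    (z : ↥(Z1 (Lq p) (rsub (ad0 p M) (Dq p)))) (hz : z ∈ ZZ p M B C)
    (hW : ∀ σ : Dq p, IsW1 B C (((z : Dq p → Ad0 p k) σ : Ad0 p k) : M2 k)) :
    cOf B C (z : Dq p → Ad0 p k) ∈ Zpeu p (psiOf M B C) := by
  obtain ⟨hcoc, U, hU, hlev⟩ := mem_Z1.1 z.2
  have hz1 : (z : Dq p → Ad0 p k) 1 = 0 := by
    have := hcoc 1 1
    rw [mul_one, map_one, Module.End.one_apply] at this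
    exact left_eq_add.1 this
  rw [mem_Zpeu]
  refine ⟨fun σ hσ => CountZ_cOf_of_notMem _ hσ, fun σ hσ τ hτ => ?_, ?_, fun σ hσ => ?_⟩
  · rw [CountZ_cOf_of_mem _ hσ, CountZ_cOf_of_mem _ hτ, CountZ_cOf_of_mem _ (mul_mem hσ hτ)]
    have h1 := hcoc ⟨σ, hσ⟩ ⟨τ, hτ⟩
    have h2 : (((z : Dq p → Ad0 p k) ⟨σ * τ, mul_mem hσ hτ⟩ : Ad0 p k) : M2 k)
        = M σ * (((z : Dq p → Ad0 p k) ⟨τ, hτ⟩ : Ad0 p k) : M2 k) * M σ⁻¹
          + (((z : Dq p → Ad0 p k) ⟨σ, hσ⟩ : Ad0 p k) : M2 k) :=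
      congrArg (fun x : Ad0 p k => (x : M2 k)) h1
    rw [h2, mul_add, add_mul, Matrix.add_apply, (conj_W1 hM h hσ (hW ⟨τ, hτ⟩)).2, add_comm]
  · obtain ⟨U', hU', hle⟩ := hU
    obtain ⟨E, hE, hEU⟩ := Lall_isOpen_iff.1 hU'
    refine ⟨E, hE, fun σ hσ hσE => ?_⟩
    have hmem : (⟨σ, hσ⟩ : Dq p) ∈ U := hle (show σ ∈ U' from hEU hσE)
    have := hlev 1 ⟨σ, hσ⟩ hmem
    rw [one_mul, hz1] at this
    rw [CountZ_cOf_of_mem _ hσ, this]
    simp
  · have hσD : σ ∈ Dq p := Iq_le_Dq p hσ.1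
    rw [CountZ_cOf_of_mem _ hσD, hz.2.2 ⟨σ, hσD⟩ hσ]
    simp

theorem finite_Z1 [Finite k] (hp2 : p ≠ 2) (hM : ResHyp p M) :
    Module.Finite (ZMod p) ↥(Z1 (Lq p) (rsub (ad0 p M) (Dq p))) := by
  have hsm : Smooth Lall (ad0 p M) := smooth_ad0 p M hM.fin
  have : Finite (M2 k) := inferInstance
  have : FiniteDimensional (ZMod p) (Ad0 p k) := Module.Finite.of_finite
  have hfd : FiniteDimensional (ZMod p) (H1 (Lq p) (rsub (ad0 p M) (Dq p))) := loc_fin1 hp2 _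
  have hB : Module.Finite (ZMod p) ↥(B1 (rsub (ad0 p M) (Dq p))) :=
    Module.Finite.range (d0 (rsub (ad0 p M) (Dq p)))
  have hB' : IsNoetherian (ZMod p) ↥(B1 (rsub (ad0 p M) (Dq p))) := IsNoetherian.iff_fg.2 hB
  have hN : Module.Finite (ZMod p)
      ↥((B1 (rsub (ad0 p M) (Dq p))).comap (Z1 (Lq p) (rsub (ad0 p M) (Dq p))).subtype) := by
    refine Module.Finite.of_injective
      (((Z1 (Lq p) (rsub (ad0 p M) (Dq p))).subtype.comp (Submodule.subtype _)).codRestrict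
        (B1 (rsub (ad0 p M) (Dq p))) (fun x => x.2)) ?_
    intro x y hxy
    apply Subtype.ext
    apply Subtype.ext
    exact congrArg (fun t : ↥(B1 (rsub (ad0 p M) (Dq p))) => (t : Dq p → Ad0 p k)) hxy
  exact Module.Finite.of_submodule_quotient
    ((B1 (rsub (ad0 p M) (Dq p))).comap (Z1 (Lq p) (rsub (ad0 p M) (Dq p))).subtype)

/-- `cOf` as a linear map. -/
def CountZ_cOfL (p : ℕ) [Fact p.Prime] {k : Type} [Field k] [Algebra (ZMod p) k] (B C : M2 k) :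
    (Dq p → Ad0 p k) →ₗ[ZMod p] (GQ → k) where
  toFun := cOf B C
  map_add' z z' := by
    funext σ
    by_cases hσ : σ ∈ Dq p
    · rw [Pi.add_apply, CountZ_cOf_of_mem _ hσ, CountZ_cOf_of_mem _ hσ, CountZ_cOf_of_mem _ hσ,
        Pi.add_apply, Submodule.coe_add, mul_add, add_mul, Matrix.add_apply]
    · rw [Pi.add_apply, CountZ_cOf_of_notMem _ hσ, CountZ_cOf_of_notMem _ hσ,
        CountZ_cOf_of_notMem _ hσ, add_zero]
  map_smul' c z := by
    funext σ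
    by_cases hσ : σ ∈ Dq p
    · rw [Pi.smul_apply, CountZ_cOf_of_mem _ hσ, CountZ_cOf_of_mem _ hσ, Pi.smul_apply,
        Submodule.coe_smul, Matrix.mul_smul, Matrix.smul_mul, Matrix.smul_apply]
      rfl
    · rw [Pi.smul_apply, CountZ_cOf_of_notMem _ hσ, CountZ_cOf_of_notMem _ hσ, smul_zero]

/-- the lower right entry at `σ` as a linear map. -/
def CountZ_alphaL (p : ℕ) [Fact p.Prime] {k : Type} [Field k] [Algebra (ZMod p) k] (B C : M2 k)
    (σ : Dq p) : (Dq p → Ad0 p k) →ₗ[ZMod p] k where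
  toFun z := (C * ((z σ : Ad0 p k) : M2 k) * B) 1 1
  map_add' z z' := by
    rw [Pi.add_apply, Submodule.coe_add, mul_add, add_mul, Matrix.add_apply]
  map_smul' c z := by
    rw [Pi.smul_apply, Submodule.coe_smul, Matrix.mul_smul, Matrix.smul_mul, Matrix.smul_apply]
    rfl

theorem finrank_ZZ_le [Finite k] (hp2 : p ≠ 2) (hK : PeuK p) (hM : ResHyp p M)
    (h : RedShape p M B C) :
    finrank (ZMod p) ↥(ZZ p M B C) ≤ 3 * finrank (ZMod p) k := by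
  obtain ⟨φ, hφ⟩ := exists_isFrob p
  have hfZ := finite_Z1 (k := k) hp2 hM
  have hfk : Module.Finite (ZMod p) k := Module.Finite.of_finite
  obtain ⟨hfP, hP⟩ := finrank_Zpeu_le (k := k) hp2 hK (psiOf_urChar hM h)
  set ι : ↥(ZZ p M B C) →ₗ[ZMod p] (Dq p → Ad0 p k) :=
    (Z1 (Lq p) (rsub (ad0 p M) (Dq p))).subtype.comp (ZZ p M B C).subtype with hι
  set A : ↥(ZZ p M B C) →ₗ[ZMod p] k := (CountZ_alphaL p B C ⟨φ, hφ.1⟩).comp ι with hA
  have hW : ∀ z : ↥(LinearMap.ker A), ∀ σ : Dq p,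
      IsW1 B C (((ι (z : ↥(ZZ p M B C)) : Dq p → Ad0 p k) σ : Ad0 p k) : M2 k) := fun z =>
    isW1_of_alpha_frob h hφ (z : ↥(ZZ p M B C)).1 (z : ↥(ZZ p M B C)).2 (LinearMap.mem_ker.1 z.2)
  set Ψ : ↥(LinearMap.ker A) →ₗ[ZMod p] ↥(Zpeu p (psiOf M B C)) :=
    (((CountZ_cOfL p B C).comp ι).comp (LinearMap.ker A).subtype).codRestrict
      (Zpeu p (psiOf M B C))
      (fun z => cOf_mem_Zpeu hM h (z : ↥(ZZ p M B C)).1 (z : ↥(ZZ p M B C)).2 (hW z)) with hΨ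
  have hinj : Function.Injective Ψ := by
    rw [← LinearMap.ker_eq_bot, LinearMap.ker_eq_bot']
    intro z hz
    have h1 : cOf B C (ι (z : ↥(ZZ p M B C))) = 0 :=
      congrArg (fun t : ↥(Zpeu p (psiOf M B C)) => (t : GQ → k)) hz
    apply Subtype.ext
    apply Subtype.ext
    apply Subtype.ext
    funext σ
    apply Subtype.ext
    refine eq_zero_of_entries h.mul (hW z σ) ?_
    have h2 := congrFun h1 (σ : GQ)
    rw [CountZ_cOf_of_mem _ σ.2] at h2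
    exact h2
  have h1 := LinearMap.finrank_range_add_finrank_ker A
  have h2 : finrank (ZMod p) ↥(LinearMap.range A) ≤ finrank (ZMod p) k := Submodule.finrank_le _
  have h3 := LinearMap.finrank_le_finrank_of_injective hinj
  omega

end Fermat.Agent.S56.F.Red

end
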