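import Fermat.Agent.S56.F.Defs
import Fermat.Agent.S56.Loc.OrdDefs
import Fermat.Agent.S55.Places.Residue

/-!
# S56 / F / Red / Defs : FLAT, reducible case (owner helper14).  Definitions.  (sorry-free, FROZEN)

`D = Dq p`, `I = Iq p`, `Ipeu p ≤ I` (S56/F/Defs), `ω = omK p k`, `f = [k : 𝔽_p]`.

* `RedShape p M B C` : `C = B⁻¹`, `C * M σ * B = !![a, *; 0, d]` on `D`, `d = 1` on `I`, `M = 1` on `Ipeu`;
* `IsW0 B C m`       : `C * m * B` is upper triangular (`Loc.IsW1` : strictly upper triangular);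
* `ZZ p M B C`       : cocycles `z` of `D` in `ad⁰` with `z(D) ⊂ W⁰`, `z(I) ⊂ W¹`, `z(Ipeu) = 0`;
* `Lred p M B C`     : their classes;
* `UrChar p ψ`       : `ψ : GQ → k` restricts to an unramified character of `D` of finite level;
* `Zpeu p ψ`         : the cocycles `c : D → k(ω ψ)` (extended by `0` to `GQ`) of finite level, `c(Ipeu) = 0`;
* `PeuK p`           : some element of `Ipeu` moves `p^(1/p)` (export of helper28);
* `resT`, `fq`, `rr` : `rr φ u = ((φ u / u ^ p - 1) / p mod 𝔪)` in the residue field `ResidueKq p`;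
* `IsGen p S y β`    : `β` is a unit and `g β = ζ ^ (y g) β` for `g ∈ S`;
* `Gsp p κ a`        : additive maps `G : k → κ` with `G (a t) ^ p = G t`.
-/

set_option autoImplicit false

noncomputable section

namespace Fermat.Agent.S56.F.Red

open Fermat.Agent.S55 Fermat.Agent.S55.Places ExtCitation Module Fermat.Agent.S56.Loc
open scoped Classical

variable (p : ℕ) [Fact p.Prime] {k : Type} [Field k] [Algebra (ZMod p) k]

/-- `M|D_p = !![a, *; 0, d]` in the basis `B` (`C = B⁻¹`), `d` unramified, `Ipeu` acts trivially. -/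
structure RedShape (M : GQ →* M2 k) (B C : M2 k) : Prop where
  mul : B * C = 1
  mul' : C * B = 1
  low : ∀ σ ∈ Dq p, (C * M σ * B) 1 0 = 0
  inert : ∀ σ ∈ Iq p, (C * M σ * B) 1 1 = 1
  peu : ∀ σ ∈ Ipeu p, M σ = 1

/-- `m` is upper triangular in the basis `B`. -/
def IsW0 (B C m : M2 k) : Prop := (C * m * B) 1 0 = 0

/-- cocycles of `D_p` with `z(D) ⊂ W⁰`, `z(I) ⊂ W¹`, `z(Ipeu) = 0`. -/
def ZZ (M : GQ →* M2 k) (B C : M2 k) :
    Submodule (ZMod p) ↥(Z1 (Lq p) (rsub (ad0 p M) (Dq p))) where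
  carrier := {z | (∀ σ : Dq p, IsW0 B C (((z : Dq p → Ad0 p k) σ : Ad0 p k) : M2 k)) ∧
    (∀ σ : Dq p, (σ : GQ) ∈ Iq p → IsW1 B C (((z : Dq p → Ad0 p k) σ : Ad0 p k) : M2 k)) ∧
    (∀ σ : Dq p, (σ : GQ) ∈ Ipeu p → (z : Dq p → Ad0 p k) σ = 0)}
  add_mem' := by
    rintro a b ⟨h1, h2, h3⟩ ⟨h1', h2', h3'⟩
    refine ⟨fun σ => ?_, fun σ hσ => ?_, fun σ hσ => ?_⟩
    · have e1 := h1 σ
      have e2 := h1' σ
      unfold IsW0 at e1 e2 ⊢
      simp only [Submodule.coe_add, Pi.add_apply, mul_add, add_mul, Matrix.add_apply, e1, e2,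
        add_zero]
    · exact (W1 p B C).add_mem (x := (a : Dq p → Ad0 p k) σ) (y := (b : Dq p → Ad0 p k) σ)
        (h2 σ hσ) (h2' σ hσ)
    · simp only [Submodule.coe_add, Pi.add_apply, h3 σ hσ, h3' σ hσ, add_zero]
  zero_mem' := by
    refine ⟨fun σ => ?_, fun σ _ => ?_, fun σ _ => rfl⟩
    · unfold IsW0; simp
    · exact (W1 p B C).zero_mem
  smul_mem' := by
    rintro c a ⟨h1, h2, h3⟩
    refine ⟨fun σ => ?_, fun σ hσ => ?_, fun σ hσ => ?_⟩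
    · have e1 := h1 σ
      unfold IsW0 at e1 ⊢
      simp only [Submodule.coe_smul, Pi.smul_apply, Matrix.mul_smul, Matrix.smul_mul,
        Matrix.smul_apply, e1, smul_zero]
    · exact (W1 p B C).smul_mem (x := (a : Dq p → Ad0 p k) σ) c (h2 σ hσ)
    · simp only [Submodule.coe_smul, Pi.smul_apply, h3 σ hσ, smul_zero]

/-- the local condition of the reducible flat case. -/
def Lred (M : GQ →* M2 k) (B C : M2 k) :
    Submodule (ZMod p) (H1 (Lq p) (rsub (ad0 p M) (Dq p))) :=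
  (ZZ p M B C).map (H1.mk (Lq p) (rsub (ad0 p M) (Dq p)))

/-- `ψ : GQ → k` restricts to an unramified character of `D_p` of finite level. -/
structure UrChar (ψ : GQ → k) : Prop where
  mul : ∀ σ ∈ Dq p, ∀ τ ∈ Dq p, ψ (σ * τ) = ψ σ * ψ τ
  inert : ∀ σ ∈ Iq p, ψ σ = 1
  level : ∃ E : NF, FiniteDimensional ℚ E ∧ ∀ σ ∈ Dq p, σ ∈ E.fixingSubgroup → ψ σ = 1

/-- cocycles `D_p → k(ω ψ)` of finite level vanishing on `Ipeu` (extended by `0` outside `D_p`). -/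
def Zpeu (ψ : GQ → k) : Submodule (ZMod p) (GQ → k) where
  carrier := {c | (∀ σ, σ ∉ Dq p → c σ = 0) ∧
    (∀ σ ∈ Dq p, ∀ τ ∈ Dq p, c (σ * τ) = c σ + omK p k σ * ψ σ * c τ) ∧
    (∃ E : NF, FiniteDimensional ℚ E ∧ ∀ σ ∈ Dq p, σ ∈ E.fixingSubgroup → c σ = 0) ∧
    (∀ σ ∈ Ipeu p, c σ = 0)}
  add_mem' := by
    rintro a b ⟨h1, h2, ⟨E, hE, h3⟩, h4⟩ ⟨h1', h2', ⟨E', hE', h3'⟩, h4'⟩
    refine ⟨fun σ hσ => ?_, fun σ hσ τ hτ => ?_,
      ⟨E ⊔ E', IntermediateField.finiteDimensional_sup E E', fun σ hσ hσE => ?_⟩, fun σ hσ => ?_⟩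
    · simp only [Pi.add_apply, h1 σ hσ, h1' σ hσ, add_zero]
    · simp only [Pi.add_apply, h2 σ hσ τ hτ, h2' σ hσ τ hτ]; ring
    · have hle := (IntermediateField.fixingSubgroup_sup (K := E) (L := E')).le hσE
      simp only [Pi.add_apply, h3 σ hσ hle.1, h3' σ hσ hle.2, add_zero]
    · simp only [Pi.add_apply, h4 σ hσ, h4' σ hσ, add_zero]
  zero_mem' := ⟨fun _ _ => rfl, fun _ _ _ _ => by simp, ⟨⊥, inferInstance, fun _ _ _ => rfl⟩,
    fun _ _ => rfl⟩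
  smul_mem' := by
    rintro t a ⟨h1, h2, ⟨E, hE, h3⟩, h4⟩
    refine ⟨fun σ hσ => ?_, fun σ hσ τ hτ => ?_, ⟨E, hE, fun σ hσ hσE => ?_⟩, fun σ hσ => ?_⟩
    · simp only [Pi.smul_apply, h1 σ hσ, smul_zero]
    · simp only [Pi.smul_apply, h2 σ hσ τ hτ, smul_add, mul_smul_comm]
    · simp only [Pi.smul_apply, h3 σ hσ hσE, smul_zero]
    · simp only [Pi.smul_apply, h4 σ hσ, smul_zero]

variable {p} in
lemma mem_Zpeu {ψ : GQ → k} {c : GQ → k} : c ∈ Zpeu p ψ ↔ (∀ σ, σ ∉ Dq p → c σ = 0) ∧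
    (∀ σ ∈ Dq p, ∀ τ ∈ Dq p, c (σ * τ) = c σ + omK p k σ * ψ σ * c τ) ∧
    (∃ E : NF, FiniteDimensional ℚ E ∧ ∀ σ ∈ Dq p, σ ∈ E.fixingSubgroup → c σ = 0) ∧
    (∀ σ ∈ Ipeu p, c σ = 0) := Iff.rfl

/-- some element of `Ipeu` moves `p^(1/p)`. -/
def PeuK : Prop := ∀ w : Qbar, w ^ p = (p : Qbar) → ∃ τ ∈ Ipeu p, τ w ≠ w

/-- the kernel of `ψ` in `D_p`. -/
def Wker (ψ : GQ → k) (hψ : UrChar p ψ) : Subgroup GQ where
  carrier := {g | g ∈ Dq p ∧ ψ g = 1}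
  mul_mem' := by
    rintro a b ⟨ha, ha'⟩ ⟨hb, hb'⟩
    exact ⟨mul_mem ha hb, by rw [hψ.mul a ha b hb, ha', hb', one_mul]⟩
  one_mem' := ⟨one_mem _, hψ.inert 1 (one_mem _)⟩
  inv_mem' := by
    rintro a ⟨ha, ha'⟩
    refine ⟨inv_mem ha, ?_⟩
    have h := hψ.mul a⁻¹ (inv_mem ha) a ha
    rw [inv_mul_cancel, hψ.inert 1 (one_mem _), ha', mul_one] at h
    exact h.symm

variable {p} in
omit [Algebra (ZMod p) k] in
lemma mem_Wker {ψ : GQ → k} {hψ : UrChar p ψ} {g : GQ} :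
    g ∈ Wker p ψ hψ ↔ g ∈ Dq p ∧ ψ g = 1 := Iff.rfl

/-! ### the residue field -/

/-- the residue field is an `𝔽_p`-algebra. -/
instance algResidueKq : Algebra (ZMod p) (ResidueKq p) := ZMod.algebra _ p

/-- total residue map (junk `0` outside the valuation ring). -/
def resT (x : Qbar) : ResidueKq p :=
  if h : nrm p x ≤ 1 then residueRes p x h else 0

/-- `(φ u / u ^ p - 1) / p`. -/
def fq (φ : GQ) (u : Qbar) : Qbar := (φ u / u ^ p - 1) / (p : Qbar)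

/-- `r(u) = (φ u / u ^ p - 1) / p mod 𝔪`. -/
def rr (φ : GQ) (u : Qbar) : ResidueKq p := resT p (fq p φ u)

/-- `u` is a unit of `R0 p` (norm one, fixed by inertia). -/
def IsU (u : Qbar) : Prop := nrm p u = 1 ∧ ∀ σ ∈ Iq p, σ u = u

/-- `β` is a unit with `g β = ζ ^ (y g) β` for all `g ∈ S`. -/
def IsGen (S : Subgroup GQ) (y : GQ → ZMod p) (β : Qbar) : Prop :=
  nrm p β = 1 ∧ ∀ g ∈ S, g β = ((zeta p : Qbarˣ) : Qbar) ^ (y g).val * β

/-- `r(β ^ p)` for any generator `β` of `y` (junk `0` if there is none). -/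
def gam (φ : GQ) (S : Subgroup GQ) (y : GQ → ZMod p) : ResidueKq p :=
  if h : ∃ β, IsGen p S y β then rr p φ (h.choose ^ p) else 0

/-- the `μ_p`-valued cochain `g ↦ lam (t * c g)`. -/
def yOf (lam : k →ₗ[ZMod p] ZMod p) (t : k) (c : GQ → k) : GQ → ZMod p := fun g => lam (t * c g)

/-- additive maps `G : k → κ` with `G (a t) ^ p = G t`. -/
def Gsp (κ : Type) [Field κ] [CharP κ p] [Algebra (ZMod p) κ] (a : k) :
    Submodule (ZMod p) (k → κ) where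
  carrier := {G | (∀ s t, G (s + t) = G s + G t) ∧ ∀ t, G (a * t) ^ p = G t}
  add_mem' := by
    rintro G G' ⟨h1, h2⟩ ⟨h1', h2'⟩
    refine ⟨fun s t => ?_, fun t => ?_⟩
    · simp only [Pi.add_apply, h1, h1']; ring
    · simp only [Pi.add_apply, add_pow_char, h2, h2']
  zero_mem' := ⟨fun _ _ => by simp, fun _ => by
    simp [(Fact.out : p.Prime).ne_zero]⟩
  smul_mem' := by
    rintro c G ⟨h1, h2⟩
    refine ⟨fun s t => ?_, fun t => ?_⟩
    · simp only [Pi.smul_apply, h1, smul_add]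
    · simp only [Pi.smul_apply, Algebra.smul_def, mul_pow, h2, ← map_pow, ZMod.pow_card]

end Fermat.Agent.S56.F.Red

end
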