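import Fermat.Agent.S56.F.Red.Unit
import Fermat.Agent.S55.Arith.Defs

/-!
# S56 / F / Red / GenOps : calculus of Kummer generators; the invariant `gam φ S y = rr φ (β ^ p)`.

TASK S56/FR-GenOpsA : up to `gam_add`.      TASK S56/FR-GenOpsB : `gam_frob`, `IsGen.vanish`.

`ζ = (zeta p : Qbar)`, `ζ ^ p = 1` (`zeta_spec p : IsPrimitiveRoot (zeta p) p`), `g ζ = ζ ^ (ω g).val` (`cycloChar_spec p g (zeta p) _`),
`ζ ^ a.val * ζ ^ b.val = ζ ^ (a + b).val` (`ZMod.val_add`, `pow_mod`-type: `pow_eq_pow_mod _ (h : ζ ^ p = 1)`), `nrm p ζ = 1` (`nrm_eq_one_of_pow_eq_one`).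
* `IsGen.isU_pow`: `g (β ^ p) = (ζ ^ n β) ^ p = β ^ p`.
* `IsGen.rr_eq`: `v := β' / β` is fixed by `S ⊇ I`, a unit: `IsU p v`; `β' ^ p = β ^ p * v ^ p`; `rr_mul`, `rr_pow_p`.
* `gam_eq`: `dif_pos ⟨β, h⟩` and `IsGen.rr_eq` with `Classical.choose_spec`.
* `gam_frob`: `β' := φ β * ζ ^ s.val`.  For `g ∈ S`: `g (φ β) = φ ((φ⁻¹ g φ) β) = φ (ζ ^ (y (φ⁻¹ g φ)).val * β) = ζ ^ (ω φ * y (φ⁻¹ g φ)).val * φ β`, `g (ζ ^ s.val) = ζ ^ (ω g * s).val`.
  So `IsGen p S y' β'`; `β' ^ p = φ (β ^ p)`; `gam_eq` twice and `rr_frob`.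
* `IsGen.vanish`: `exists_root_of_rr_eq_zero` gives `v`, `IsU p v`, `v ^ p = β ^ p`; `ξ := β / v`, `ξ ^ p = 1`; `g ξ = ξ` if `cycloChar p g = 1` (`cycloChar_spec`, `val_one`), `g v = v`; so `g β = β`,
  `ζ ^ (y g).val = 1`, `(y g).val < p` ⇒ `y g = 0` (`(zeta_spec p).pow_eq_one_iff_dvd`, after `IsPrimitiveRoot.coe_units_iff`).
-/

set_option autoImplicit false

noncomputable section

namespace Fermat.Agent.S56.F.Red

open Fermat.Agent.S55 Fermat.Agent.S55.Places ExtCitation Module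

variable {p : ℕ} [Fact p.Prime] {S : Subgroup GQ} {y y' : GQ → ZMod p} {β β' : Qbar} {φ : GQ}

/-! ### TASK S56/FR-GenOpsA -/

theorem GenOps_zeta_pow : ((zeta p : Qbarˣ) : Qbar) ^ p = 1 := by
  have h := (zeta_spec p).pow_eq_one
  rw [← Units.val_pow_eq_pow_val, h, Units.val_one]

theorem GenOps_zeta_add (a b : ZMod p) :
    ((zeta p : Qbarˣ) : Qbar) ^ a.val * ((zeta p : Qbarˣ) : Qbar) ^ b.val
      = ((zeta p : Qbarˣ) : Qbar) ^ (a + b).val := by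
  rw [← pow_add, ZMod.val_add, ← pow_eq_pow_mod _ GenOps_zeta_pow]

theorem GenOps_ne_zero (h : IsGen p S y β) : β ≠ 0 := by
  rintro rfl
  have := h.1
  rw [nrm_zero] at this
  exact zero_ne_one this

theorem IsGen.isU_pow (hIS : Iq p ≤ S) (h : IsGen p S y β) : IsU p (β ^ p) := by
  refine ⟨by rw [nrm_pow, h.1, one_pow], fun σ hσ => ?_⟩
  rw [map_pow, h.2 σ (hIS hσ), mul_pow, ← pow_mul, mul_comm (y σ).val p, pow_mul, GenOps_zeta_pow,
    one_pow, one_mul]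

theorem IsGen.mul (h : IsGen p S y β) (h' : IsGen p S y' β') :
    IsGen p S (fun g => y g + y' g) (β * β') := by
  refine ⟨by rw [nrm_mul, h.1, h'.1, one_mul], fun g hg => ?_⟩
  rw [map_mul, h.2 g hg, h'.2 g hg, ← GenOps_zeta_add]
  ring

theorem IsGen.rr_eq (hφ : IsFrob p φ) (hIS : Iq p ≤ S) (h : IsGen p S y β) (h' : IsGen p S y β') :
    rr p φ (β ^ p) = rr p φ (β' ^ p) := by
  have hβ : β ≠ 0 := GenOps_ne_zero h
  have hv : IsU p (β' / β) := by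
    refine ⟨by rw [nrm_div, h.1, h'.1, div_one], fun σ hσ => ?_⟩
    have hz : ((zeta p : Qbarˣ) : Qbar) ^ (y σ).val ≠ 0 := pow_ne_zero _ (Units.ne_zero _)
    rw [map_div₀, h.2 σ (hIS hσ), h'.2 σ (hIS hσ), mul_div_mul_left _ _ hz]
  have e : β' ^ p = β ^ p * (β' / β) ^ p := by
    rw [← mul_pow, mul_div_cancel₀ _ hβ]
  rw [e, rr_mul hφ (h.isU_pow hIS) (hv.pow p), rr_pow_p hφ hv, add_zero]

theorem gam_eq (hφ : IsFrob p φ) (hIS : Iq p ≤ S) (h : IsGen p S y β) :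
    gam p φ S y = rr p φ (β ^ p) := by
  have hex : ∃ β, IsGen p S y β := ⟨β, h⟩
  rw [gam, dif_pos hex]
  exact IsGen.rr_eq hφ hIS hex.choose_spec h

theorem gam_add (hφ : IsFrob p φ) (hIS : Iq p ≤ S) (h : ∃ β, IsGen p S y β)
    (h' : ∃ β, IsGen p S y' β) :
    gam p φ S (fun g => y g + y' g) = gam p φ S y + gam p φ S y' := by
  obtain ⟨β, hβ⟩ := h
  obtain ⟨β', hβ'⟩ := h'
  rw [gam_eq hφ hIS (hβ.mul hβ'), gam_eq hφ hIS hβ, gam_eq hφ hIS hβ', mul_pow,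
    rr_mul hφ (hβ.isU_pow hIS) (hβ'.isU_pow hIS)]

/-! ### TASK S56/FR-GenOpsB -/

/-- `ζ ^ n` only depends on `n` mod `p`. -/
lemma GenOpsB_pow_val (n : ℕ) :
    ((zeta p : Qbarˣ) : Qbar) ^ ((n : ZMod p)).val = ((zeta p : Qbarˣ) : Qbar) ^ n := by
  have h1 : ((zeta p : Qbarˣ) : Qbar) ^ p = 1 := by
    rw [← Units.val_pow_eq_pow_val, (zeta_spec p).pow_eq_one, Units.val_one]
  rw [ZMod.val_natCast, ← pow_eq_pow_mod _ h1]

lemma GenOpsB_pow_add (a b : ZMod p) :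
    ((zeta p : Qbarˣ) : Qbar) ^ a.val * ((zeta p : Qbarˣ) : Qbar) ^ b.val =
      ((zeta p : Qbarˣ) : Qbar) ^ (a + b).val := by
  have : NeZero p := ⟨(Fact.out : p.Prime).ne_zero⟩
  rw [← pow_add, ← GenOpsB_pow_val (a.val + b.val), Nat.cast_add, ZMod.natCast_zmod_val,
    ZMod.natCast_zmod_val]

lemma GenOpsB_pow_mul (a b : ZMod p) :
    (((zeta p : Qbarˣ) : Qbar) ^ a.val) ^ b.val = ((zeta p : Qbarˣ) : Qbar) ^ (a * b).val := by
  have : NeZero p := ⟨(Fact.out : p.Prime).ne_zero⟩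
  rw [← pow_mul, ← GenOpsB_pow_val (a.val * b.val), Nat.cast_mul, ZMod.natCast_zmod_val,
    ZMod.natCast_zmod_val]

lemma GenOpsB_map_zeta (g : GQ) : g ((zeta p : Qbarˣ) : Qbar) =
    ((zeta p : Qbarˣ) : Qbar) ^ ((cycloChar p g : (ZMod p)ˣ) : ZMod p).val :=
  cycloChar_spec p g (zeta p) (zeta_spec p).pow_eq_one

theorem gam_frob (hφ : IsFrob p φ) (hIS : Iq p ≤ S) (hS : ∀ g ∈ S, φ⁻¹ * g * φ ∈ S)
    (h : ∃ β, IsGen p S y β) (s : ZMod p)
    (hy' : ∀ g ∈ S, y' g = ((cycloChar p φ : (ZMod p)ˣ) : ZMod p) * y (φ⁻¹ * g * φ) +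
      (((cycloChar p g : (ZMod p)ˣ) : ZMod p) - 1) * s) :
    gam p φ S y' = gam p φ S y ^ p := by
  obtain ⟨β, hβ⟩ := h
  have hp0 : p ≠ 0 := (Fact.out : p.Prime).ne_zero
  have hz1 : ((zeta p : Qbarˣ) : Qbar) ^ p = 1 := by
    rw [← Units.val_pow_eq_pow_val, (zeta_spec p).pow_eq_one, Units.val_one]
  have hzn : nrm p ((zeta p : Qbarˣ) : Qbar) = 1 := nrm_eq_one_of_pow_eq_one p hp0 hz1
  have hgen : IsGen p S y' (φ β * ((zeta p : Qbarˣ) : Qbar) ^ s.val) := by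
    refine ⟨?_, fun g hg => ?_⟩
    · rw [nrm_mul, nrm_pow, hzn, one_pow, mul_one, nrm_map_of_mem_Dq p hφ.1, hβ.1]
    · have e1 : g (φ β) = φ ((φ⁻¹ * g * φ) β) := by
        have e0 : g * φ = φ * (φ⁻¹ * g * φ) := by group
        calc g (φ β) = (g * φ) β := rfl
          _ = (φ * (φ⁻¹ * g * φ)) β := by rw [← e0]
          _ = φ ((φ⁻¹ * g * φ) β) := rfl
      rw [map_mul, map_pow, e1, hβ.2 _ (hS g hg), map_mul, map_pow, GenOpsB_map_zeta,
        GenOpsB_map_zeta, GenOpsB_pow_mul, GenOpsB_pow_mul, hy' g hg]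
      have e2 : ((zeta p : Qbarˣ) : Qbar) ^
            (((cycloChar p φ : (ZMod p)ˣ) : ZMod p) * y (φ⁻¹ * g * φ) +
              (((cycloChar p g : (ZMod p)ˣ) : ZMod p) - 1) * s).val *
          ((zeta p : Qbarˣ) : Qbar) ^ s.val =
          ((zeta p : Qbarˣ) : Qbar) ^ (((cycloChar p φ : (ZMod p)ˣ) : ZMod p) *
            y (φ⁻¹ * g * φ)).val *
          ((zeta p : Qbarˣ) : Qbar) ^ (((cycloChar p g : (ZMod p)ˣ) : ZMod p) * s).val := by
        rw [GenOpsB_pow_add, GenOpsB_pow_add]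
        congr 2
        ring
      calc _ = (((zeta p : Qbarˣ) : Qbar) ^ (((cycloChar p φ : (ZMod p)ˣ) : ZMod p) *
            y (φ⁻¹ * g * φ)).val *
          ((zeta p : Qbarˣ) : Qbar) ^ (((cycloChar p g : (ZMod p)ˣ) : ZMod p) * s).val) * φ β := by
            ring
        _ = _ := by rw [← e2]; ring
  have hpow : (φ β * ((zeta p : Qbarˣ) : Qbar) ^ s.val) ^ p = φ (β ^ p) := by
    rw [mul_pow, ← pow_mul, mul_comm s.val p, pow_mul, hz1, one_pow, mul_one, map_pow]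
  rw [gam_eq hφ hIS hgen, gam_eq hφ hIS hβ, hpow, rr_frob hφ (hβ.isU_pow hIS)]

theorem IsGen.vanish (hp2 : p ≠ 2) (hφ : IsFrob p φ) (hIS : Iq p ≤ S) (h : IsGen p S y β)
    (h0 : rr p φ (β ^ p) = 0) : ∀ g ∈ Iq p, cycloChar p g = 1 → y g = 0 := by
  intro g hg hg1
  have : NeZero p := ⟨(Fact.out : p.Prime).ne_zero⟩
  have hp0 : p ≠ 0 := (Fact.out : p.Prime).ne_zero
  obtain ⟨v, hv, hvp⟩ := exists_root_of_rr_eq_zero hp2 hφ (h.isU_pow hIS) h0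
  have hv0 : v ≠ 0 := hv.ne_zero
  have hβ0 : β ≠ 0 := by
    rintro rfl
    have := h.1
    rw [nrm_zero] at this
    exact zero_ne_one this
  have hξ0 : β / v ≠ 0 := div_ne_zero hβ0 hv0
  have hξp : (Units.mk0 (β / v) hξ0) ^ p = 1 := by
    apply Units.ext
    rw [Units.val_pow_eq_pow_val, Units.val_mk0, div_pow, hvp, div_self (pow_ne_zero _ hβ0),
      Units.val_one]
  have e1 : g (β / v) = β / v := by
    have := cycloChar_spec p g (Units.mk0 (β / v) hξ0) hξp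
    rw [hg1, Units.val_one, ZMod.val_one, pow_one, Units.val_mk0] at this
    exact this
  have e2 : g β = β := by
    have e3 : β = β / v * v := (div_mul_cancel₀ β hv0).symm
    conv_lhs => rw [e3]
    rw [map_mul, e1, hv.2 g hg, ← e3]
  have e4 := h.2 g (hIS hg)
  rw [e2] at e4
  have e5 : ((zeta p : Qbarˣ) : Qbar) ^ (y g).val = 1 := by
    have : (((zeta p : Qbarˣ) : Qbar) ^ (y g).val - 1) * β = 0 := by
      rw [sub_mul, one_mul, ← e4, sub_self]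
    rcases mul_eq_zero.1 this with h' | h'
    · exact sub_eq_zero.1 h'
    · exact absurd h' hβ0
  have hz : IsPrimitiveRoot ((zeta p : Qbarˣ) : Qbar) p :=
    IsPrimitiveRoot.coe_units_iff.2 (zeta_spec p)
  have e6 := (hz.pow_eq_one_iff_dvd _).1 e5
  have e7 : (y g).val = 0 := Nat.eq_zero_of_dvd_of_lt e6 (ZMod.val_lt _)
  exact (ZMod.val_eq_zero _).1 e7

end Fermat.Agent.S56.F.Red

end
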