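import Fermat.Agent.S56.F.Red.Gen
import Fermat.Agent.S56.F.Red.GenOps

/-!
# S56 / F / Red / Gamma : the map `c ↦ G_c`, `G_c t = gam φ W (g ↦ lam (t * c g))`, `W = Wker p ψ hψ = ker ψ ∩ D`.

TASK S56/FR-GammaA : `Iq_le_Wker` ... `exists_isGen_yOf`.     TASK S56/FR-GammaB : `conj_formula`, `gam_yOf_frob`.     TASK S56/FR-GammaC : `exists_Gamma`, `Gamma_ker`.

`c ∈ Zpeu p ψ` (see `mem_Zpeu`), `χ = ω ψ`, `ω = omK p k σ = algebraMap (ZMod p) k (cycloChar p σ)`, `yOf p lam t c g = lam (t * c g)`.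
* `yOf_cocycle`: for `g, h ∈ W`: `c (g h) = c g + ω g * 1 * c h`; `t * (algebraMap a * x) = a • (t * x)` (`Algebra.smul_def`, `mul_left_comm`), `map_add`, `map_smul`, `smul_eq_mul`.
* `exists_isGen_yOf`: `exists_isGen hK (Wker p ψ hψ) Iq_le_Wker _ yOf_cocycle yOf_level yOf_peu`.
* `conj_formula`: from the cocycle identity: `0 = c 1` (`c (1 * 1)`), `c φ⁻¹ = - χ(φ⁻¹) c φ`, `χ(φ⁻¹) χ(φ) = 1`
  (`ψ` multiplicative on `D`, `ψ 1 = 1` as `1 ∈ I`; `omK` is multiplicative: `map_mul` of `cycloChar p`, `Units.val_mul`, `map_mul`), so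
  `χ φ * c (φ⁻¹ g φ) = c g + (χ g - 1) c φ`.
* `gam_yOf_frob`: `gam_frob` with `y := yOf p lam (ψ φ * t) c`, `y' := yOf p lam t c`, `s := - lam (t * c φ)`; for `g ∈ W` (`ψ g = 1`, `χ g = ω g`):
  `ω φ • lam (ψ φ * t * c (φ⁻¹ g φ)) = lam (t * (χ φ * c (φ⁻¹ g φ))) = lam (t * c g) + (ω g - 1) * lam (t * c φ)`.   `hS`: `W` is normalised by `φ ∈ D` (`ψ (φ⁻¹ g φ) = ψ φ⁻¹ * 1 * ψ φ = ψ 1`).
* `exists_Gamma`: additivity in `t` and in `c` from `gam_add` (`yOf p lam (s + t) c = fun g => yOf .. s c g + yOf .. t c g` by `funext`, `add_mul`, `map_add`); an additive map between `ZMod p`-modules is linear: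
  `AddMonoidHom.toZModLinearMap p`.  Membership in `Gsp`: `gam_yOf_frob`.
* `Gamma_ker`: fix `g ∈ I` with `cycloChar p g = 1`.  For every `t`: `β` a generator of `yOf p lam t c`, `rr φ (β ^ p) = gam .. = 0` (`gam_eq`), so `lam (t * c g) = 0` by `IsGen.vanish`.  `hlam` ⇒ `c g = 0`.
-/

set_option autoImplicit false

noncomputable section

namespace Fermat.Agent.S56.F.Red

open Fermat.Agent.S55 Fermat.Agent.S55.Places ExtCitation Module Fermat.Agent.S56.Loc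

variable {p : ℕ} [Fact p.Prime] {k : Type} [Field k] [Algebra (ZMod p) k]
variable {ψ : GQ → k} {c : GQ → k} {φ : GQ}

/-! ### TASK S56/FR-GammaA -/

omit [Algebra (ZMod p) k] in
theorem Iq_le_Wker (hψ : UrChar p ψ) : Iq p ≤ Wker p ψ hψ := by
  intro g hg
  exact ⟨Iq_le_Dq p hg, hψ.inert g hg⟩

theorem yOf_cocycle (hψ : UrChar p ψ) (hc : c ∈ Zpeu p ψ) (lam : k →ₗ[ZMod p] ZMod p) (t : k) :
    ∀ g ∈ Wker p ψ hψ, ∀ h ∈ Wker p ψ hψ, yOf p lam t c (g * h) =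
      yOf p lam t c g + ((cycloChar p g : (ZMod p)ˣ) : ZMod p) * yOf p lam t c h := by
  intro g hg h hh
  obtain ⟨-, h2, -, -⟩ := mem_Zpeu.mp hc
  unfold yOf
  rw [h2 g hg.1 h hh.1, hg.2, mul_one, mul_add, map_add]
  congr 1
  unfold omK
  rw [mul_left_comm, ← Algebra.smul_def, map_smul, smul_eq_mul]

theorem yOf_level (hψ : UrChar p ψ) (hc : c ∈ Zpeu p ψ) (lam : k →ₗ[ZMod p] ZMod p) (t : k) :
    ∃ E : NF, FiniteDimensional ℚ E ∧
      ∀ g ∈ Wker p ψ hψ, g ∈ E.fixingSubgroup → yOf p lam t c g = 0 := by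
  obtain ⟨-, -, ⟨E, hE, h3⟩, -⟩ := mem_Zpeu.mp hc
  refine ⟨E, hE, fun g hg hgE => ?_⟩
  unfold yOf
  rw [h3 g hg.1 hgE, mul_zero, map_zero]

theorem yOf_peu (hc : c ∈ Zpeu p ψ) (lam : k →ₗ[ZMod p] ZMod p) (t : k) :
    ∀ g ∈ Ipeu p, yOf p lam t c g = 0 := by
  obtain ⟨-, -, -, h4⟩ := mem_Zpeu.mp hc
  intro g hg
  unfold yOf
  rw [h4 g hg, mul_zero, map_zero]

theorem exists_isGen_yOf (hK : PeuK p) (hψ : UrChar p ψ) (hc : c ∈ Zpeu p ψ)
    (lam : k →ₗ[ZMod p] ZMod p) (t : k) : ∃ β, IsGen p (Wker p ψ hψ) (yOf p lam t c) β :=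
  exists_isGen hK (Wker p ψ hψ) (Iq_le_Wker hψ) _ (yOf_cocycle hψ hc lam t)
    (yOf_level hψ hc lam t) (yOf_peu hc lam t)

private theorem Gamma_omK_mul (g h : GQ) : omK p k (g * h) = omK p k g * omK p k h := by
  unfold omK
  rw [map_mul, Units.val_mul, map_mul]

private theorem Gamma_omK_one : omK p k (1 : GQ) = 1 := by
  unfold omK
  rw [map_one, Units.val_one, map_one]

theorem conj_formula (hψ : UrChar p ψ) (hc : c ∈ Zpeu p ψ) {g h : GQ} (hg : g ∈ Dq p)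
    (hh : h ∈ Dq p) :
    omK p k h * ψ h * c (h⁻¹ * g * h) = c g + (omK p k g * ψ g - 1) * c h := by
  obtain ⟨-, hcoc, -, -⟩ := mem_Zpeu.mp hc
  have hh' : h⁻¹ ∈ Dq p := inv_mem hh
  have hψ1 : ψ 1 = 1 := hψ.inert 1 (one_mem _)
  have hc1 : c 1 = 0 := by
    have h1 := hcoc 1 (one_mem _) 1 (one_mem _)
    rw [mul_one, Gamma_omK_one, hψ1, one_mul, one_mul] at h1
    exact left_eq_add.mp h1
  have h2 : c h + omK p k h * ψ h * c h⁻¹ = 0 := by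
    rw [← hcoc h hh h⁻¹ hh', mul_inv_cancel, hc1]
  have h3 : omK p k h * ψ h * (omK p k h⁻¹ * ψ h⁻¹) = 1 := by
    have e1 : omK p k h * omK p k h⁻¹ = 1 := by
      rw [← Gamma_omK_mul, mul_inv_cancel, Gamma_omK_one]
    have e2 : ψ h * ψ h⁻¹ = 1 := by
      rw [← hψ.mul h hh h⁻¹ hh', mul_inv_cancel, hψ1]
    calc omK p k h * ψ h * (omK p k h⁻¹ * ψ h⁻¹)
        = (omK p k h * omK p k h⁻¹) * (ψ h * ψ h⁻¹) := by ring
      _ = 1 := by rw [e1, e2, one_mul]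
  rw [mul_assoc h⁻¹ g h, hcoc h⁻¹ hh' (g * h) (mul_mem hg hh), hcoc g hg h hh]
  linear_combination h2 + (c g + omK p k g * ψ g * c h) * h3

theorem gam_yOf_frob (hK : PeuK p) (hψ : UrChar p ψ) (hφ : IsFrob p φ) (hc : c ∈ Zpeu p ψ)
    (lam : k →ₗ[ZMod p] ZMod p) (t : k) :
    gam p φ (Wker p ψ hψ) (yOf p lam (ψ φ * t) c) ^ p = gam p φ (Wker p ψ hψ) (yOf p lam t c) := by
  have hφD : φ ∈ Dq p := hφ.1
  have hφD' : φ⁻¹ ∈ Dq p := inv_mem hφD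
  have hψ1 : ψ 1 = 1 := hψ.inert 1 (one_mem _)
  symm
  refine gam_frob hφ (Iq_le_Wker hψ) ?_ (exists_isGen_yOf hK hψ hc lam (ψ φ * t))
    (- lam (t * c φ)) ?_
  · intro g hg
    obtain ⟨hgD, hg1⟩ := mem_Wker.mp hg
    refine mem_Wker.mpr ⟨mul_mem (mul_mem hφD' hgD) hφD, ?_⟩
    rw [hψ.mul _ (mul_mem hφD' hgD) _ hφD, hψ.mul _ hφD' _ hgD, hg1, mul_one,
      ← hψ.mul _ hφD' _ hφD, inv_mul_cancel, hψ1]
  · intro g hg
    obtain ⟨hgD, hg1⟩ := mem_Wker.mp hg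
    have h1 := conj_formula hψ hc hgD hφD
    rw [hg1, mul_one] at h1
    unfold yOf
    have h2 : ((cycloChar p φ : (ZMod p)ˣ) : ZMod p) * lam (ψ φ * t * c (φ⁻¹ * g * φ))
        = lam (t * (omK p k φ * ψ φ * c (φ⁻¹ * g * φ))) := by
      rw [← smul_eq_mul, ← map_smul, Algebra.smul_def]
      congr 1
      unfold omK
      ring
    have h3 : (((cycloChar p g : (ZMod p)ˣ) : ZMod p) - 1) * lam (t * c φ)
        = lam (t * ((omK p k g - 1) * c φ)) := by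
      rw [← smul_eq_mul, ← map_smul, Algebra.smul_def]
      congr 1
      unfold omK
      rw [map_sub, map_one]
      ring
    rw [h2, h1, mul_add, map_add, ← h3]
    ring

/-! ### TASK S56/FR-GammaC -/

theorem exists_Gamma (hK : PeuK p) (hψ : UrChar p ψ) (hφ : IsFrob p φ)
    (lam : k →ₗ[ZMod p] ZMod p) :
    ∃ Γ : ↥(Zpeu p ψ) →ₗ[ZMod p] ↥(Gsp p (ResidueKq p) (ψ φ)), ∀ (c : ↥(Zpeu p ψ)) (t : k),
      (Γ c : k → ResidueKq p) t = gam p φ (Wker p ψ hψ) (yOf p lam t (c : GQ → k)) := by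
  have hIS := Iq_le_Wker (p := p) hψ
  have hmem : ∀ c : ↥(Zpeu p ψ),
      (fun t : k => gam p φ (Wker p ψ hψ) (yOf p lam t (c : GQ → k)))
        ∈ Gsp p (ResidueKq p) (ψ φ) := by
    intro c
    refine ⟨fun s t => ?_, fun t => gam_yOf_frob hK hψ hφ c.2 lam t⟩
    have e : yOf p lam (s + t) (c : GQ → k)
        = fun g => yOf p lam s (c : GQ → k) g + yOf p lam t (c : GQ → k) g := by
      funext g
      simp only [yOf, add_mul, map_add]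
    show gam p φ (Wker p ψ hψ) (yOf p lam (s + t) (c : GQ → k)) = _
    rw [e]
    exact gam_add hφ hIS (exists_isGen_yOf hK hψ c.2 lam s) (exists_isGen_yOf hK hψ c.2 lam t)
  let Γ₀ : ↥(Zpeu p ψ) →+ ↥(Gsp p (ResidueKq p) (ψ φ)) :=
    AddMonoidHom.mk' (fun c => ⟨_, hmem c⟩) (by
      intro c c'
      apply Subtype.ext
      funext t
      have e : yOf p lam t ((c + c' : ↥(Zpeu p ψ)) : GQ → k)
          = fun g => yOf p lam t (c : GQ → k) g + yOf p lam t (c' : GQ → k) g := by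
        funext g
        simp only [yOf, Submodule.coe_add, Pi.add_apply, mul_add, map_add]
      show gam p φ (Wker p ψ hψ) (yOf p lam t ((c + c' : ↥(Zpeu p ψ)) : GQ → k)) = _
      rw [e]
      exact gam_add hφ hIS (exists_isGen_yOf hK hψ c.2 lam t) (exists_isGen_yOf hK hψ c'.2 lam t))
  exact ⟨Γ₀.toZModLinearMap p, fun c t => rfl⟩

theorem Gamma_ker (hp2 : p ≠ 2) (hK : PeuK p) (hψ : UrChar p ψ) (hφ : IsFrob p φ)
    (lam : k →ₗ[ZMod p] ZMod p) (hlam : ∀ x : k, (∀ t, lam (t * x) = 0) → x = 0)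
    (hc : c ∈ Zpeu p ψ) (h0 : ∀ t, gam p φ (Wker p ψ hψ) (yOf p lam t c) = 0) :
    ∀ g ∈ Iq p, cycloChar p g = 1 → c g = 0 := by
  intro g hg h1
  have hIS := Iq_le_Wker (p := p) hψ
  refine hlam _ fun t => ?_
  obtain ⟨β, hβ⟩ := exists_isGen_yOf hK hψ hc lam t
  have h2 : rr p φ (β ^ p) = 0 := by rw [← gam_eq hφ hIS hβ, h0 t]
  exact hβ.vanish hp2 hφ hIS h2 g hg h1

end Fermat.Agent.S56.F.Red

end
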