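import Fermat.Agent.S56.F.Red.Unit
import Fermat.Agent.S55.Arith.Kummer

/-!
# S56 / F / Red / Gen : Kummer generators of `μ_p`-valued cocycles.

TASK S56/FR-GenA : `exists_gen0` (Hilbert 90).      TASK S56/FR-GenB : `exists_isGen`.

* `exists_gen0`: restrict `y` to `↥S`: `y' : ↥S → ZMod p := fun g => y g` lies in `Z1 (Lall.sub S) (rsub (mu p) S)`
  (`mem_Z1`: `f (g * h) = ρ g (f h) + f g`, `mu_apply`; level: `U := (E.fixingSubgroup).comap S.subtype` is open for `Lall.sub S` by definition of `Levels.comap` and `Lall_isOpen_iff`;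
  `y (g s) = y g + ω g * y s = y g`).  `(gmDatum p S).ιc_mem_Z1` puts `g ↦ iota p (y' g)` in `Z1 _ (rsub Gm S)`, `(gmDatum p S).h90_top` makes it a coboundary (`mem_B1`):
  `iota p (y' g) = Gm g b - b`.  Take `β := (b.toMul : Qbarˣ)`; `iota_apply`, `Gm_apply`, `toMul_sub`.
* `exists_isGen`: take `β₀ ≠ 0` from `exists_gen0`.  `b := β₀ ^ p` is fixed by `S ⊇ I` (`(ζ ^ n) ^ p = 1`), so `nrm p b = p ^ i` (`exists_zpow_of_fixed`).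
  Let `π₁ ^ p = p` (`IsAlgClosed.exists_pow_nat_eq`), `w := β₀ * π₁ ^ i` (zpow; `nrm p π₁ ^ p = p⁻¹`): `w ^ p = b * p ^ i` is fixed by `I`, of norm `1`: `w ^ p ∈ R0 p`, `nrm p w = 1`.
  Take `τ ∈ Ipeu p` with `τ π₁ ≠ π₁` (`hK`).  `τ w = w` (definition of `Ipeu`), `τ β₀ = β₀` (`y τ = 0`; `Ipeu p ≤ Iq p ≤ S`), so `τ (π₁ ^ i) = π₁ ^ i`.
  `ξ := τ π₁ / π₁` satisfies `ξ ^ p = 1`, `ξ ≠ 1`, `ξ ^ i = 1` ⇒ `(p : ℤ) ∣ i` (`IsPrimitiveRoot.zpow_eq_one_iff_dvd`, `IsPrimitiveRoot.of_... prime order`: `orderOf ξ = p` by `orderOf_eq_prime`).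
  `i = p j`; `β := β₀ * (p : Qbar) ^ j` has `nrm p β ^ p = 1` and `g β = ζ ^ (y g) β` (`map_zpow₀`, `map_natCast`).
-/

set_option autoImplicit false

noncomputable section

namespace Fermat.Agent.S56.F.Red

open Fermat.Agent.S55 Fermat.Agent.S55.Places ExtCitation Module

variable {p : ℕ} [Fact p.Prime]

/-! ### TASK S56/FR-GenA -/

theorem exists_gen0 (S : Subgroup GQ) (y : GQ → ZMod p)
    (hy : ∀ g ∈ S, ∀ h ∈ S, y (g * h) = y g + ((cycloChar p g : (ZMod p)ˣ) : ZMod p) * y h)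
    (hl : ∃ E : NF, FiniteDimensional ℚ E ∧ ∀ g ∈ S, g ∈ E.fixingSubgroup → y g = 0) :
    ∃ β : Qbar, β ≠ 0 ∧ ∀ g ∈ S, g β = ((zeta p : Qbarˣ) : Qbar) ^ (y g).val * β := by
  have hz : (fun g : S => y g) ∈ Z1 (Lall.sub S) (rsub (mu p) S) := by
    rw [mem_Z1]
    refine ⟨fun g h => ?_, ?_⟩
    · change y ((g : GQ) * (h : GQ)) = mu p (g : GQ) (y h) + y g
      rw [mu_apply, hy g g.2 h h.2, add_comm]
    · obtain ⟨E, hE, hE0⟩ := hl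
      refine ⟨E.fixingSubgroup.comap S.subtype,
        ⟨E.fixingSubgroup, Lall_isOpen_iff.2 ⟨E, hE, le_rfl⟩, le_rfl⟩, fun g s hs => ?_⟩
      change y ((g : GQ) * (s : GQ)) = y g
      rw [hy g g.2 s s.2, hE0 (s : GQ) s.2 hs, mul_zero, add_zero]
  obtain ⟨b, hb⟩ : ∃ b : Additive Qbarˣ, ∀ g : S, iota p (y g) = Gm (g : GQ) b - b :=
    mem_B1.mp ((gmDatum p S).h90_top ((gmDatum p S).ιc_mem_Z1 hz))
  have hb' : ∀ g : S, iota p (y g) = Gm (g : GQ) b - b := hb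
  refine ⟨((b.toMul : Qbarˣ) : Qbar), (b.toMul : Qbarˣ).ne_zero, fun g hg => ?_⟩
  have h1 := hb' ⟨g, hg⟩
  rw [iota_apply, eq_sub_iff_add_eq] at h1
  have h2 := congrArg (fun x : Additive Qbarˣ => ((x.toMul : Qbarˣ) : Qbar)) h1
  simp only [toMul_add, toMul_ofMul, Units.val_mul, Units.val_pow_eq_pow_val, Gm_apply] at h2
  exact h2.symm

/-! ### TASK S56/FR-GenB -/

theorem exists_isGen (hK : PeuK p) (S : Subgroup GQ) (hIS : Iq p ≤ S) (y : GQ → ZMod p)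
    (hy : ∀ g ∈ S, ∀ h ∈ S, y (g * h) = y g + ((cycloChar p g : (ZMod p)ˣ) : ZMod p) * y h)
    (hl : ∃ E : NF, FiniteDimensional ℚ E ∧ ∀ g ∈ S, g ∈ E.fixingSubgroup → y g = 0)
    (hpeu : ∀ g ∈ Ipeu p, y g = 0) : ∃ β, IsGen p S y β := by
  have hp : p.Prime := Fact.out
  have hp0 : (0 : ℝ) < p := by exact_mod_cast hp.pos
  have hpR : (p : ℝ) ≠ 0 := hp0.ne'
  have hpQ : (p : Qbar) ≠ 0 := by exact_mod_cast hp.ne_zero
  obtain ⟨β₀, hβ₀, hg₀⟩ := exists_gen0 S y hy hl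
  have hζ : (((zeta p : Qbarˣ) : Qbar)) ^ p = 1 := by
    rw [← Units.val_pow_eq_pow_val, (zeta_spec p).pow_eq_one, Units.val_one]
  -- `b = β₀ ^ p` is fixed by `S`
  have hbS : ∀ g ∈ S, g (β₀ ^ p) = β₀ ^ p := by
    intro g hg
    rw [map_pow, hg₀ g hg, mul_pow, ← pow_mul, mul_comm _ p, pow_mul, hζ, one_pow, one_mul]
  have hb0 : β₀ ^ p ≠ 0 := pow_ne_zero _ hβ₀
  obtain ⟨i, hi⟩ := exists_zpow_of_fixed (p := p) (fun σ hσ => hbS σ (hIS hσ)) hb0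
  obtain ⟨π₁, hπ₁⟩ := IsAlgClosed.exists_pow_nat_eq (p : Qbar) hp.pos
  have hπ0 : π₁ ≠ 0 := by
    rintro rfl
    rw [zero_pow hp.ne_zero] at hπ₁
    exact hpQ hπ₁.symm
  -- `w = β₀ π₁ ^ i`
  have hwp : (β₀ * π₁ ^ i) ^ p = β₀ ^ p * (p : Qbar) ^ i := by
    rw [mul_pow, ← zpow_natCast (π₁ ^ i) p, ← zpow_mul, mul_comm i, zpow_mul, zpow_natCast, hπ₁]
  have hwn : nrm p ((β₀ * π₁ ^ i) ^ p) = 1 := by
    rw [hwp, nrm_mul, hi, nrm_zpow, nrm_natCast_self, inv_zpow, mul_inv_cancel₀ (zpow_ne_zero _ hpR)]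
  have hwR : (β₀ * π₁ ^ i) ^ p ∈ R0 p := by
    refine ⟨hwn.le, fun σ hσ => ?_⟩
    rw [hwp, map_mul, hbS σ (hIS hσ), map_zpow₀, map_natCast]
  have hw1 : nrm p (β₀ * π₁ ^ i) = 1 := by
    rw [nrm_pow] at hwn
    exact (pow_eq_one_iff_of_nonneg (nrm_nonneg p _) hp.ne_zero).1 hwn
  obtain ⟨τ, hτ, hτπ⟩ := hK π₁ hπ₁
  have hτw : τ (β₀ * π₁ ^ i) = β₀ * π₁ ^ i := hτ.2 _ hwR hw1
  have hτβ : τ β₀ = β₀ := by
    rw [hg₀ τ (hIS hτ.1), hpeu τ hτ, ZMod.val_zero, pow_zero, one_mul]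
  have hτi : τ π₁ ^ i = π₁ ^ i := by
    rw [map_mul, hτβ, map_zpow₀] at hτw
    exact mul_left_cancel₀ hβ₀ hτw
  -- the root of unity `ξ = τ π₁ / π₁`
  have hξp : (τ π₁ / π₁) ^ p = 1 := by
    rw [div_pow, ← map_pow, hπ₁, map_natCast, div_self hpQ]
  have hξ1 : τ π₁ / π₁ ≠ 1 := by
    intro h1
    exact hτπ ((div_eq_one_iff_eq hπ0).1 h1)
  have hξi : (τ π₁ / π₁) ^ i = 1 := by
    rw [div_zpow, hτi, div_self (zpow_ne_zero _ hπ0)]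
  have hprim : IsPrimitiveRoot (τ π₁ / π₁) p := by
    have h1 := IsPrimitiveRoot.orderOf (τ π₁ / π₁)
    rwa [orderOf_eq_prime hξp hξ1] at h1
  obtain ⟨j, hj⟩ := (hprim.zpow_eq_one_iff_dvd i).1 hξi
  refine ⟨β₀ * (p : Qbar) ^ j, ?_, fun g hg => ?_⟩
  · have h1 : nrm p (β₀ * (p : Qbar) ^ j) ^ p = 1 := by
      rw [← nrm_pow, mul_pow, nrm_mul, hi, ← zpow_natCast ((p : Qbar) ^ j) p, ← zpow_mul, nrm_zpow,
        nrm_natCast_self, inv_zpow, mul_comm j, ← hj, mul_inv_cancel₀ (zpow_ne_zero _ hpR)]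
    exact (pow_eq_one_iff_of_nonneg (nrm_nonneg p _) hp.ne_zero).1 h1
  · rw [map_mul, hg₀ g hg, map_zpow₀, map_natCast, mul_assoc]

end Fermat.Agent.S56.F.Red

end
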