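import Fermat.Agent.S56.F.Red.LinDefs
import Fermat.Agent.S56.F.Closure

/-!
# S56 / F / Red / LinA : bases, transport of the order, formal properties of `defAct` and `aug`.

TASK S56/FR-LinA1 : `exists_basis_of_ne_zero`, `preshape`.      TASK S56/FR-LinA2 : `isCoc_zTw`, `trace_zTw`, `jTw_injective`, `jTw_defAct`, `exists_ord_zTw`.
TASK S56/FR-LinA3 : `defAct_mul` ... `act_mem_aug`.

`defAct M z σ (v, w) = (M σ v, M σ w + (z σ * M σ) v)`, `resAct M σ v = M σ v` (`mulVec`), `aug Γ act = AddSubgroup.closure {y | ∃ σ ∈ Γ, ∃ x, y = act σ x - x}`  (S56/F/Defs.lean).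
* `exists_basis_of_ne_zero`: if `e 0 ≠ 0`: `B = !![e 0, 0; e 1, 1]`, `C = !![(e 0)⁻¹, 0; -(e 1)(e 0)⁻¹, 1]`; otherwise `e 1 ≠ 0`, `B = !![0, 1; e 1, 0]`, `C = !![0, (e 1)⁻¹; 1, 0]` (`Matrix.mul_fin_two`, `Matrix.one_fin_two`, `field_simp`).
* `preshape`: `e = B *ᵥ ![1,0]` (column 0), `C *ᵥ e = ![1,0]`.  `aug I (resAct M)` is stable under `M σ`, `σ ∈ D`: closure induction; `M σ (M τ x - x) = M (σ τ σ⁻¹) (M σ x) - M σ x`, `σ τ σ⁻¹ ∈ I` (`Iq_conj_mem`).
  `e ∈ aug` (`a = 1`), so `M σ e = a e`, `(C * M σ * B) 1 0 = (C *ᵥ (M σ *ᵥ e)) 1 = a * (C * B) 1 0 = 0`.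
  For `σ ∈ I`, `e' :=` column 1 of `B`: `M σ e' - e' ∈ aug`, `= a e`; `(C * M σ * B) 1 1 = (C *ᵥ (e' + a e)) 1 = (C * B) 1 1 + a (C * B) 1 0 = 1`.
* `jTw_defAct`: see the computation: with `z' = z - (M m M⁻¹ - m)`: `z' σ M σ B v - m M σ B v = z σ M σ B v - M σ m B v` (`map_inv_mul`: `M σ⁻¹ * M σ = 1`); use `Matrix.mulVec_mulVec`, `Matrix.sub_mulVec`, `Matrix.mulVec_sub`, `Matrix.mulVec_add`,
  and `B * C = 1` to cancel.  It may be easiest to prove the matrix identities first and then apply `Matrix.mulVec_mulVec`.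
* `exists_ord_zTw`: `h.of_injective (jTw B m) jTw_injective (fun σ _ x => jTw_defAct ..)` (S56/F/Closure.lean).
* `act_mem_aug`: closure induction (`AddSubgroup.closure_induction`): `act σ (act τ x - x) = act (σ τ σ⁻¹) (act σ x) - act σ x` by `defAct_sub`, `defAct_mul` (`σ τ = (σ τ σ⁻¹) σ`).
-/

set_option autoImplicit false

noncomputable section

namespace Fermat.Agent.S56.F.Red

open Fermat.Agent.S55 Fermat.Agent.S55.Places ExtCitation Module Fermat.Agent.S56.Loc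

variable {p : ℕ} [Fact p.Prime] {k : Type} [Field k]
variable {M : GQ →* M2 k} {B C : M2 k} {z : GQ → M2 k}

/-! ### TASK S56/FR-LinA1 -/

omit [Fact p.Prime] in
theorem exists_basis_of_ne_zero {e : Fin 2 → k} (he : e ≠ 0) :
    ∃ B C : M2 k, B * C = 1 ∧ C * B = 1 ∧ ∀ i, B i 0 = e i := by
  by_cases h0 : e 0 = 0
  · have h1 : e 1 ≠ 0 := by
      intro h1
      apply he
      funext i
      fin_cases i
      · exact h0
      · exact h1
    refine ⟨!![0, 1; e 1, 0], !![0, (e 1)⁻¹; 1, 0], ?_, ?_, ?_⟩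
    · rw [Matrix.mul_fin_two, Matrix.one_fin_two]
      simp [h1]
    · rw [Matrix.mul_fin_two, Matrix.one_fin_two]
      simp [h1]
    · intro i
      fin_cases i <;> simp [h0]
  · refine ⟨!![e 0, 0; e 1, 1], !![(e 0)⁻¹, 0; -(e 1) * (e 0)⁻¹, 1], ?_, ?_, ?_⟩
    · rw [Matrix.mul_fin_two, Matrix.one_fin_two]
      simp [h0]
    · rw [Matrix.mul_fin_two, Matrix.one_fin_two]
      simp [h0]
    · intro i
      fin_cases i <;> simp

/-- `aug I (resAct M)` is stable under `M σ`, `σ ∈ D`. -/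
theorem LinA_aug_stable (M : GQ →* M2 k) {σ : GQ} (hσ : σ ∈ Dq p) {x : Fin 2 → k}
    (hx : x ∈ aug (Iq p) (resAct M)) : (M σ).mulVec x ∈ aug (Iq p) (resAct M) := by
  unfold aug at hx ⊢
  induction hx using AddSubgroup.closure_induction with
  | mem y hy =>
    obtain ⟨τ, hτ, x, rfl⟩ := hy
    apply AddSubgroup.subset_closure
    refine ⟨σ * τ * σ⁻¹, Iq_conj_mem p hσ hτ, (M σ).mulVec x, ?_⟩
    simp only [resAct]
    rw [Matrix.mulVec_sub, Matrix.mulVec_mulVec, Matrix.mulVec_mulVec, ← map_mul, ← map_mul,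
      inv_mul_cancel_right]
  | zero => rw [Matrix.mulVec_zero]; exact zero_mem _
  | add y z _ _ hy hz => rw [Matrix.mulVec_add]; exact add_mem hy hz
  | neg y _ hy => rw [Matrix.mulVec_neg]; exact neg_mem hy

theorem preshape (M : GQ →* M2 k) {e : Fin 2 → k}
    (hline : ∀ x, x ∈ aug (Iq p) (resAct M) ↔ ∃ a : k, x = a • e) (hCB : C * B = 1)
    (hB : ∀ i, B i 0 = e i) :
    (∀ σ ∈ Dq p, (C * M σ * B) 1 0 = 0) ∧ (∀ σ ∈ Iq p, (C * M σ * B) 1 1 = 1) := by
  have hcol0 : ∀ (N : M2 k) (i : Fin 2), (N * B) i 0 = (N.mulVec e) i := by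
    intro N i
    rw [Matrix.mul_apply, Matrix.mulVec, dotProduct]
    exact Finset.sum_congr rfl fun j _ => by rw [hB]
  have hcol1 : ∀ (N : M2 k) (i : Fin 2), (N * B) i 1 = (N.mulVec fun j => B j 1) i := by
    intro N i
    rw [Matrix.mul_apply, Matrix.mulVec, dotProduct]
  have hCe : (C.mulVec e) 1 = 0 := by
    rw [← hcol0, hCB, Matrix.one_apply_ne (by decide)]
  have hCe' : (C.mulVec fun j => B j 1) 1 = 1 := by
    rw [← hcol1, hCB, Matrix.one_apply_eq]
  have hemem : e ∈ aug (Iq p) (resAct M) := (hline e).mpr ⟨1, (one_smul _ _).symm⟩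
  constructor
  · intro σ hσ
    obtain ⟨a, ha⟩ := (hline _).mp (LinA_aug_stable M hσ hemem)
    rw [hcol0, ← Matrix.mulVec_mulVec, ha, Matrix.mulVec_smul, Pi.smul_apply, hCe, smul_zero]
  · intro σ hσ
    have hmem : (M σ).mulVec (fun j => B j 1) - (fun j => B j 1) ∈ aug (Iq p) (resAct M) :=
      AddSubgroup.subset_closure ⟨σ, hσ, _, rfl⟩
    obtain ⟨a, ha⟩ := (hline _).mp hmem
    rw [sub_eq_iff_eq_add] at ha
    rw [hcol1, ← Matrix.mulVec_mulVec, ha, Matrix.mulVec_add, Matrix.mulVec_smul, Pi.add_apply,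
      Pi.smul_apply, hCe, hCe', smul_zero, zero_add]

/-! ### TASK S56/FR-LinA2 -/

omit [Fact p.Prime] in
theorem isCoc_zTw (hBC : B * C = 1) (hCB : C * B = 1) (hz : IsCoc M z) (m : M2 k) :
    IsCoc (conjM M B C hBC hCB) (zTw M B C m z) := by
  intro σ τ
  have hBC' : ∀ X : M2 k, B * (C * X) = X := fun X => by rw [← mul_assoc, hBC, one_mul]
  have h1 : C * M σ * B * (C * (z τ - (M τ * m * M τ⁻¹ - m)) * B) * (C * M σ⁻¹ * B)
      = C * (M σ * (z τ - (M τ * m * M τ⁻¹ - m)) * M σ⁻¹) * B := by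
    simp only [mul_assoc, hBC']
  simp only [zTw, conjM_apply]
  rw [h1, hz σ τ, mul_inv_rev, map_mul, map_mul, ← add_mul, ← mul_add]
  congr 2
  noncomm_ring

omit [Fact p.Prime] in
theorem trace_zTw (hBC : B * C = 1) (htr : ∀ σ, (z σ).trace = 0) (m : M2 k) (σ : GQ) :
    (zTw M B C m z σ).trace = 0 := by
  have h1 : M σ⁻¹ * M σ = 1 := by rw [← map_mul, inv_mul_cancel, map_one]
  rw [zTw, Matrix.trace_mul_cycle, hBC, one_mul, Matrix.trace_sub, Matrix.trace_sub, htr σ,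
    Matrix.trace_mul_cycle, h1, one_mul, sub_self, sub_self]

omit [Fact p.Prime] in
theorem jTw_injective (hCB : C * B = 1) (m : M2 k) : Function.Injective (jTw B m) := by
  have hinj : ∀ v : Fin 2 → k, B.mulVec v = 0 → v = 0 := by
    intro v hv
    have := congrArg C.mulVec hv
    rwa [Matrix.mulVec_mulVec, hCB, Matrix.one_mulVec, Matrix.mulVec_zero] at this
  rw [injective_iff_map_eq_zero]
  rintro ⟨v, w⟩ h
  have h1 : B.mulVec v = 0 := congrArg Prod.fst h
  have h2 : B.mulVec w - m.mulVec (B.mulVec v) = 0 := congrArg Prod.snd h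
  rw [h1, Matrix.mulVec_zero, sub_zero] at h2
  rw [hinj v h1, hinj w h2]
  rfl

omit [Fact p.Prime] in
theorem jTw_defAct (hBC : B * C = 1) (hCB : C * B = 1) (m : M2 k) (σ : GQ) (x : EE k) :
    jTw B m (defAct (conjM M B C hBC hCB) (zTw M B C m z) σ x) = defAct M z σ (jTw B m x) := by
  obtain ⟨v, w⟩ := x
  have hBC' : ∀ X : M2 k, B * (C * X) = X := fun X => by rw [← mul_assoc, hBC, one_mul]
  have h1 : M σ⁻¹ * M σ = 1 := by rw [← map_mul, inv_mul_cancel, map_one]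
  have E1 : B * (C * M σ * B) = M σ * B := by simp only [mul_assoc, hBC']
  have E2 : B * (zTw M B C m z σ * (C * M σ * B))
      = z σ * M σ * B - M σ * (m * B) + m * (M σ * B) := by
    have e : B * (zTw M B C m z σ * (C * M σ * B))
        = (z σ - (M σ * m * M σ⁻¹ - m)) * (M σ * B) := by
      simp only [zTw, mul_assoc, hBC']
    have e2 : M σ * m * M σ⁻¹ * (M σ * B) = M σ * (m * B) := by
      rw [mul_assoc (M σ * m), ← mul_assoc (M σ⁻¹), h1, one_mul, mul_assoc]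
    rw [e, sub_mul, sub_mul, e2, mul_assoc]
    abel
  refine Prod.ext ?_ ?_
  · show B.mulVec ((C * M σ * B).mulVec v) = (M σ).mulVec (B.mulVec v)
    rw [Matrix.mulVec_mulVec, Matrix.mulVec_mulVec, E1]
  · show B.mulVec ((C * M σ * B).mulVec w + (zTw M B C m z σ * (C * M σ * B)).mulVec v)
        - m.mulVec (B.mulVec ((C * M σ * B).mulVec v))
      = (M σ).mulVec (B.mulVec w - m.mulVec (B.mulVec v)) + (z σ * M σ).mulVec (B.mulVec v)
    simp only [Matrix.mulVec_add, Matrix.mulVec_sub, Matrix.mulVec_mulVec]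
    rw [E1, E2, Matrix.add_mulVec, Matrix.sub_mulVec]
    abel

theorem exists_ord_zTw (hBC : B * C = 1) (hCB : C * B = 1) {H : Subalgebra (R0 p) (EE k → Qbar)}
    (h : Ord (R0 p) (Iq p) (defAct M z) H) (m : M2 k) :
    ∃ H' : Subalgebra (R0 p) (EE k → Qbar),
      Ord (R0 p) (Iq p) (defAct (conjM M B C hBC hCB) (zTw M B C m z)) H' := by
  exact ⟨_, h.of_injective (jTw B m) (jTw_injective hCB m)
    (fun σ _ x => jTw_defAct hBC hCB m σ x)⟩

/-! ### TASK S56/FR-LinA3 -/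

omit [Fact p.Prime] in
theorem defAct_mul (hz : IsCoc M z) (σ τ : GQ) (x : EE k) :
    defAct M z (σ * τ) x = defAct M z σ (defAct M z τ x) := by
  have h1 : M σ⁻¹ * M σ = 1 := by rw [← map_mul, inv_mul_cancel, map_one]
  have h2 : z (σ * τ) * M (σ * τ) = M σ * (z τ * M τ) + z σ * M σ * M τ := by
    rw [hz, map_mul, add_mul]
    congr 1
    · calc M σ * z τ * M σ⁻¹ * (M σ * M τ) = M σ * z τ * (M σ⁻¹ * M σ) * M τ := by
            simp only [mul_assoc]
        _ = M σ * (z τ * M τ) := by rw [h1, mul_one, mul_assoc]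
    · rw [mul_assoc]
  unfold defAct
  refine Prod.ext ?_ ?_
  · show (M (σ * τ)).mulVec x.1 = (M σ).mulVec ((M τ).mulVec x.1)
    rw [map_mul, Matrix.mulVec_mulVec]
  · show (M (σ * τ)).mulVec x.2 + (z (σ * τ) * M (σ * τ)).mulVec x.1 =
      (M σ).mulVec ((M τ).mulVec x.2 + (z τ * M τ).mulVec x.1)
        + (z σ * M σ).mulVec ((M τ).mulVec x.1)
    rw [h2, map_mul, Matrix.add_mulVec, Matrix.mulVec_add, Matrix.mulVec_mulVec,
      Matrix.mulVec_mulVec, Matrix.mulVec_mulVec, add_assoc]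

omit [Fact p.Prime] in
theorem defAct_add (σ : GQ) (x y : EE k) :
    defAct M z σ (x + y) = defAct M z σ x + defAct M z σ y := by
  unfold defAct
  refine Prod.ext ?_ ?_
  · show (M σ).mulVec (x.1 + y.1) = (M σ).mulVec x.1 + (M σ).mulVec y.1
    rw [Matrix.mulVec_add]
  · show (M σ).mulVec (x.2 + y.2) + (z σ * M σ).mulVec (x.1 + y.1) =
      ((M σ).mulVec x.2 + (z σ * M σ).mulVec x.1) + ((M σ).mulVec y.2 + (z σ * M σ).mulVec y.1)
    rw [Matrix.mulVec_add, Matrix.mulVec_add]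
    abel

omit [Fact p.Prime] in
theorem defAct_sub (σ : GQ) (x y : EE k) :
    defAct M z σ (x - y) = defAct M z σ x - defAct M z σ y := by
  have h := defAct_add (M := M) (z := z) σ (x - y) y
  rw [sub_add_cancel] at h
  rw [h, add_sub_cancel_right]

omit [Fact p.Prime] in
theorem defAct_neg (σ : GQ) (x : EE k) : defAct M z σ (-x) = -defAct M z σ x := by
  have h := defAct_sub (M := M) (z := z) σ (-x) (-x)
  have h' := defAct_sub (M := M) (z := z) σ (-x - -x) x
  rw [sub_self, sub_self] at h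
  rw [sub_self, h, zero_sub, zero_sub] at h'
  exact h'

omit [Fact p.Prime] in
theorem defAct_zero (σ : GQ) : defAct M z σ 0 = 0 := by
  have h := defAct_sub (M := M) (z := z) σ 0 0
  rwa [sub_self, sub_self] at h

omit [Fact p.Prime] in
theorem defAct_smul (σ : GQ) (a : k) (x : EE k) : defAct M z σ (a • x) = a • defAct M z σ x := by
  unfold defAct
  refine Prod.ext ?_ ?_
  · show (M σ).mulVec (a • x.1) = a • (M σ).mulVec x.1
    rw [Matrix.mulVec_smul]
  · show (M σ).mulVec (a • x.2) + (z σ * M σ).mulVec (a • x.1) =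
      a • ((M σ).mulVec x.2 + (z σ * M σ).mulVec x.1)
    rw [Matrix.mulVec_smul, Matrix.mulVec_smul, smul_add]

omit [Fact p.Prime] in
theorem smul_mem_aug (Γ : Subgroup GQ) (a : k) {x : EE k} (hx : x ∈ aug Γ (defAct M z)) :
    a • x ∈ aug Γ (defAct M z) := by
  unfold aug at hx ⊢
  induction hx using AddSubgroup.closure_induction with
  | mem y hy =>
    obtain ⟨σ, hσ, x, rfl⟩ := hy
    apply AddSubgroup.subset_closure
    exact ⟨σ, hσ, a • x, by rw [defAct_smul, smul_sub]⟩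
  | zero => rw [smul_zero]; exact AddSubgroup.zero_mem _
  | add y y' _ _ h h' => rw [smul_add]; exact AddSubgroup.add_mem _ h h'
  | neg y _ h => rw [smul_neg]; exact AddSubgroup.neg_mem _ h

theorem act_mem_aug (hz : IsCoc M z) {σ : GQ} (hσ : σ ∈ Dq p) {x : EE k}
    (hx : x ∈ aug (Iq p) (defAct M z)) : defAct M z σ x ∈ aug (Iq p) (defAct M z) := by
  unfold aug at hx ⊢
  induction hx using AddSubgroup.closure_induction with
  | mem y hy =>
    obtain ⟨τ, hτ, x, rfl⟩ := hy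
    apply AddSubgroup.subset_closure
    refine ⟨σ * τ * σ⁻¹, Iq_conj_mem p hσ hτ, defAct M z σ x, ?_⟩
    rw [defAct_sub, ← defAct_mul hz, ← defAct_mul hz, inv_mul_cancel_right]
  | zero => rw [defAct_zero]; exact AddSubgroup.zero_mem _
  | add y y' _ _ h h' => rw [defAct_add]; exact AddSubgroup.add_mem _ h h'
  | neg y _ h => rw [defAct_neg]; exact AddSubgroup.neg_mem _ h

end Fermat.Agent.S56.F.Red

end
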