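import Fermat.Agent.S56.F.Red.LinA
import Fermat.Agent.S56.F.Export

/-!
# S56 / F / Red / LinB : the core of (R1), in standard coordinates.

TASK S56/FR-LinB1 : `kill`, `aug_fst`, `aug_snd_of_fst`, `e0_mem_aug`, `aug_snd`.       TASK S56/FR-LinB2 : `std_W0`, `std_W1`, `std_omega`, `std_peu`.

Setting: `hS : StdShape p M` (`M σ = !![a, b; 0, d]` on `D`, `d = 1` on `I`, `a d = ω`), `z` a trace zero cocycle, `h : Ord (R0 p) (Iq p) (defAct M z) H`, `N := aug (Iq p) (defAct M z)`,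
`σ₀ ∈ I` with `ω σ₀ ≠ 1` and `z σ₀ 1 0 = 0`.   `e₀ = ![1, 0]`.   All vector computations: `Matrix.mulVec`, `Matrix.dotProduct`/`dotProduct`, `Fin.sum_univ_two`, `Matrix.mul_apply`; `ext i; fin_cases i`.
* `kill`: `p • x = 0` in `EE k` (`CharP k p` from `Algebra (ZMod p) k`: `charP_of_injective_algebraMap (algebraMap (ZMod p) k).injective p`; `nsmul_eq_mul`/`Nat.cast_smul_eq_nsmul k`, `CharP.cast_eq_zero`).
* `aug_fst`: closure induction; `(defAct M z σ x - x).1 1 = (M σ x.1) 1 - x.1 1 = 0 * x.1 0 + 1 * x.1 1 - x.1 1 = 0` for `σ ∈ I` (`Iq_le_Dq`).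
* `aug_snd_of_fst`: `S := {x | x.1 = 0}` (an `AddSubgroup`, e.g. `(AddMonoidHom.fst _ _).ker`), stable under `defAct M z σ`.  `h.aug_inter hp2 kill S _ hx _ : x ∈ augOn (Iq p) (defAct M z) S`; closure induction on `augOn`:
  a generator `defAct M z σ y - y`, `y.1 = 0`, has second component `M σ y.2 - y.2` whose entry `1` vanishes as above.
* `e0_mem_aug`: `a₀ := M σ₀ 0 0 = ω σ₀` (`hS.det`, `Matrix.det_fin_two`, `low`, `inert`).  `defAct M z σ₀ (0, e₀) - (0, e₀) = (0, (a₀ - 1) e₀) ∈ N`; scale by `(a₀ - 1)⁻¹` (`smul_mem_aug`): `(0, e₀) ∈ N`.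
  `defAct M z σ₀ (e₀, 0) - (e₀, 0) = ((a₀ - 1) e₀, a₀ (z σ₀ 0 0) e₀) ∈ N` (here `z σ₀ 1 0 = 0`); scale and subtract a multiple of `(0, e₀)`.
* `aug_snd`: `x ∈ N`, `x.1 = (x.1 0) e₀` by `aug_fst`; `x - (x.1 0) • (e₀, 0) ∈ N` has first component `0`; `aug_snd_of_fst`.
* `std_W0`: `defAct M z σ (e₀, 0) = (a e₀, a (z σ) e₀) ∈ N` (`act_mem_aug`), `aug_snd`: `a * z σ 1 0 = 0`, `a ≠ 0` (`a d = ω σ ≠ 0`: a unit of `ZMod p` maps to a nonzero element).
* `std_W1`: `σ ∈ I`: `defAct M z σ (![0,1], 0) - (![0,1], 0) ∈ N`, second component `(z σ * M σ) *ᵥ ![0,1]`, entry `1`: `z σ 1 0 * b + z σ 1 1 * 1 = z σ 1 1`; `= 0` by `aug_snd`.  `Matrix.trace_fin_two`.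
* `std_omega`: `y ∈ N` is `(s e₀, t e₀)` (`aug_fst`, `aug_snd`); `defAct M z σ y = (s a e₀, t a e₀ + s a (z σ) e₀)`, `(z σ) e₀ = 0` by `std_W0`, `std_W1`, `a = ω σ`; `cyE p σ • y = ((cyE p σ : ℕ) : k) • y` and
  `((cyE p σ : ℕ) : k) = omK p k σ` (`cyE`, `omK`, `ZMod.natCast_zmod_val`, `map_natCast`).
* `std_peu`: `h.peu hp2 kill std_omega τ hτ x : defAct M z τ x = x`; with `x = (v, 0)`: `M τ v = v` for all `v` ⇒ `M τ = 1` (`Matrix.ext`/`Matrix.mulVec_single`, or `v = ![1,0], ![0,1]`) and `z τ * M τ = 0` ⇒ `z τ = 0`.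
-/

set_option autoImplicit false

noncomputable section

namespace Fermat.Agent.S56.F.Red

open Fermat.Agent.S55 Fermat.Agent.S55.Places ExtCitation Module Fermat.Agent.S56.Loc

variable {p : ℕ} [Fact p.Prime] {k : Type} [Field k] [Algebra (ZMod p) k]
variable {M : GQ →* M2 k} {z : GQ → M2 k} {H : Subalgebra (R0 p) (EE k → Qbar)}

/-! ### TASK S56/FR-LinB1 -/

theorem kill (x : EE k) : p • x = 0 := by
  haveI : CharP k p := charP_of_injective_algebraMap (algebraMap (ZMod p) k).injective p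
  rw [← Nat.cast_smul_eq_nsmul k, CharP.cast_eq_zero, zero_smul]

theorem aug_fst (hS : StdShape p M) {x : EE k} (hx : x ∈ aug (Iq p) (defAct M z)) :
    x.1 1 = 0 := by
  induction hx using AddSubgroup.closure_induction with
  | mem y hy =>
    obtain ⟨σ, hσ, w, rfl⟩ := hy
    simp only [defAct, Prod.fst_sub, Pi.sub_apply, Matrix.mulVec, dotProduct, Fin.sum_univ_two]
    rw [hS.low σ (Iq_le_Dq p hσ), hS.inert σ hσ]
    ring
  | zero => rfl
  | add a b _ _ ha hb => rw [Prod.fst_add, Pi.add_apply, ha, hb, add_zero]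
  | neg a _ ha => rw [Prod.fst_neg, Pi.neg_apply, ha, neg_zero]

theorem aug_snd_of_fst (hp2 : p ≠ 2) (hS : StdShape p M) (h : Ord (R0 p) (Iq p) (defAct M z) H)
    {x : EE k} (hx : x ∈ aug (Iq p) (defAct M z)) (h1 : x.1 = 0) : x.2 1 = 0 := by
  let S : AddSubgroup (EE k) := (AddMonoidHom.fst (Fin 2 → k) (Fin 2 → k)).ker
  have hmemS : ∀ y : EE k, y ∈ S ↔ y.1 = 0 := fun y => by
    simp only [S, AddMonoidHom.mem_ker, AddMonoidHom.coe_fst]
  have hst : ∀ σ ∈ Iq p, ∀ y ∈ S, defAct M z σ y ∈ S := by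
    intro σ _ y hy
    rw [hmemS] at hy ⊢
    simp only [defAct, hy, Matrix.mulVec_zero]
  have hx' := h.aug_inter hp2 kill S hst hx ((hmemS x).mpr h1)
  clear hx h1
  induction hx' using AddSubgroup.closure_induction with
  | mem y hy =>
    obtain ⟨σ, hσ, w, hw, rfl⟩ := hy
    have hw1 : w.1 = 0 := (hmemS w).mp hw
    simp only [defAct, hw1, Matrix.mulVec_zero, add_zero, Prod.snd_sub, Pi.sub_apply,
      Matrix.mulVec, dotProduct, Fin.sum_univ_two]
    rw [hS.low σ (Iq_le_Dq p hσ), hS.inert σ hσ]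
    ring
  | zero => rfl
  | add a b _ _ ha hb => rw [Prod.snd_add, Pi.add_apply, ha, hb, add_zero]
  | neg a _ ha => rw [Prod.snd_neg, Pi.neg_apply, ha, neg_zero]

theorem e0_mem_aug (hS : StdShape p M) {σ₀ : GQ} (hσ₀ : σ₀ ∈ Iq p) (hω : omK p k σ₀ ≠ 1)
    (h10 : z σ₀ 1 0 = 0) :
    ((![1, 0], 0) : EE k) ∈ aug (Iq p) (defAct M z) ∧
      ((0, ![1, 0]) : EE k) ∈ aug (Iq p) (defAct M z) := by
  have ha₀ : M σ₀ 0 0 = omK p k σ₀ := by
    have h1 := hS.det σ₀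
    rw [Matrix.det_fin_two, hS.low σ₀ (Iq_le_Dq p hσ₀), hS.inert σ₀ hσ₀] at h1
    rw [← h1]; ring
  have hne : M σ₀ 0 0 - 1 ≠ 0 := by rw [ha₀]; exact sub_ne_zero.mpr hω
  have hgen : ∀ x : EE k, defAct M z σ₀ x - x ∈ aug (Iq p) (defAct M z) := fun x =>
    AddSubgroup.subset_closure ⟨σ₀, hσ₀, x, rfl⟩
  have h2 : ((0, ![1, 0]) : EE k) ∈ aug (Iq p) (defAct M z) := by
    have h3 := smul_mem_aug (M := M) (z := z) (Iq p) (M σ₀ 0 0 - 1)⁻¹ (hgen (0, ![1, 0]))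
    convert h3 using 1
    ext i
    · simp [defAct]
    · fin_cases i
      · simp only [defAct, Matrix.mulVec_zero, add_zero, Prod.smul_snd, Prod.snd_sub,
          Pi.smul_apply, Pi.sub_apply, Matrix.mulVec, dotProduct, Fin.sum_univ_two, smul_eq_mul]
        simp only [Fin.zero_eta, Fin.isValue, Matrix.cons_val_zero, Matrix.cons_val_one,
          mul_one, mul_zero, add_zero]
        rw [inv_mul_cancel₀ hne]
      · simp only [defAct, Matrix.mulVec_zero, add_zero, Prod.smul_snd, Prod.snd_sub,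
          Pi.smul_apply, Pi.sub_apply, Matrix.mulVec, dotProduct, Fin.sum_univ_two, smul_eq_mul]
        simp only [Fin.mk_one, Fin.isValue, Matrix.cons_val_zero, Matrix.cons_val_one,
          mul_one, mul_zero, add_zero, sub_zero]
        rw [hS.low σ₀ (Iq_le_Dq p hσ₀), mul_zero]
  refine ⟨?_, h2⟩
  have h3 := smul_mem_aug (M := M) (z := z) (Iq p) (M σ₀ 0 0 - 1)⁻¹ (hgen (![1, 0], 0))
  have h4 := smul_mem_aug (M := M) (z := z) (Iq p)
    ((M σ₀ 0 0 - 1)⁻¹ * (z σ₀ 0 0 * M σ₀ 0 0)) h2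
  have h5 := sub_mem h3 h4
  convert h5 using 1
  ext i
  · fin_cases i
    · simp only [defAct, Prod.fst_sub, Prod.smul_fst, Pi.smul_apply, Pi.sub_apply, Matrix.mulVec,
        dotProduct, Fin.sum_univ_two, smul_eq_mul]
      simp only [Fin.zero_eta, Fin.isValue, Matrix.cons_val_zero, Matrix.cons_val_one,
        mul_one, mul_zero, add_zero, Pi.zero_apply, sub_zero]
      rw [inv_mul_cancel₀ hne]
    · simp only [defAct, Prod.fst_sub, Prod.smul_fst, Pi.smul_apply, Pi.sub_apply, Matrix.mulVec,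
        dotProduct, Fin.sum_univ_two, smul_eq_mul]
      simp only [Fin.mk_one, Fin.isValue, Matrix.cons_val_zero, Matrix.cons_val_one,
        mul_one, mul_zero, add_zero, Pi.zero_apply, sub_zero]
      rw [hS.low σ₀ (Iq_le_Dq p hσ₀), mul_zero]
  · fin_cases i
    · simp only [defAct, Prod.snd_sub, Prod.smul_snd, Pi.smul_apply, Pi.sub_apply, Matrix.mulVec,
        dotProduct, Fin.sum_univ_two, smul_eq_mul, Matrix.mul_apply, Pi.add_apply]
      simp only [Fin.zero_eta, Fin.isValue, Matrix.cons_val_zero, Matrix.cons_val_one,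
        mul_one, mul_zero, add_zero, Pi.zero_apply, sub_zero, zero_add]
      rw [hS.low σ₀ (Iq_le_Dq p hσ₀)]
      ring
    · simp only [defAct, Prod.snd_sub, Prod.smul_snd, Pi.smul_apply, Pi.sub_apply, Matrix.mulVec,
        dotProduct, Fin.sum_univ_two, smul_eq_mul, Matrix.mul_apply, Pi.add_apply]
      simp only [Fin.mk_one, Fin.isValue, Matrix.cons_val_zero, Matrix.cons_val_one,
        mul_one, mul_zero, add_zero, Pi.zero_apply, sub_zero, zero_add]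
      rw [hS.low σ₀ (Iq_le_Dq p hσ₀), h10]
      ring

theorem aug_snd (hp2 : p ≠ 2) (hS : StdShape p M) (h : Ord (R0 p) (Iq p) (defAct M z) H)
    {σ₀ : GQ} (hσ₀ : σ₀ ∈ Iq p) (hω : omK p k σ₀ ≠ 1) (h10 : z σ₀ 1 0 = 0)
    {x : EE k} (hx : x ∈ aug (Iq p) (defAct M z)) : x.2 1 = 0 := by
  have h1 := (e0_mem_aug hS hσ₀ hω h10).1
  have h2 := smul_mem_aug (M := M) (z := z) (Iq p) (x.1 0) h1
  have h3 := sub_mem hx h2
  have h4 : (x - x.1 0 • ((![1, 0], 0) : EE k)).1 = 0 := by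
    ext i
    fin_cases i
    · simp
    · simpa using aug_fst hS hx
  have h5 := aug_snd_of_fst hp2 hS h h3 h4
  simpa using h5

/-! ### TASK S56/FR-LinB2 -/

omit [Fact p.Prime] [Algebra (ZMod p) k] in
theorem LinB_defAct_e0 (σ : GQ) :
    defAct M z σ ((![1, 0], 0) : EE k) =
      ((fun i => M σ i 0), (fun i => (z σ * M σ) i 0)) := by
  unfold defAct
  ext i
  · fin_cases i <;> simp [Matrix.mulVec, dotProduct, Fin.sum_univ_two]
  · fin_cases i <;> simp [Matrix.mulVec, dotProduct, Fin.sum_univ_two]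

omit [Fact p.Prime] [Algebra (ZMod p) k] in
theorem LinB_defAct_e1 (σ : GQ) :
    defAct M z σ ((![0, 1], 0) : EE k) =
      ((fun i => M σ i 1), (fun i => (z σ * M σ) i 1)) := by
  unfold defAct
  ext i
  · fin_cases i <;> simp [Matrix.mulVec, dotProduct, Fin.sum_univ_two]
  · fin_cases i <;> simp [Matrix.mulVec, dotProduct, Fin.sum_univ_two]

theorem LinB_omK_ne_zero (σ : GQ) : omK p k σ ≠ 0 := by
  unfold omK
  intro h0
  have h1 : ((cycloChar p σ : (ZMod p)ˣ) : ZMod p) = 0 :=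
    (algebraMap (ZMod p) k).injective (by rw [h0, map_zero])
  exact (cycloChar p σ).ne_zero h1

theorem LinB_a_ne_zero (hS : StdShape p M) {σ : GQ} (hσ : σ ∈ Dq p) : M σ 0 0 ≠ 0 := by
  intro h0
  have hd := hS.det σ
  rw [Matrix.det_fin_two, h0, hS.low σ hσ] at hd
  apply LinB_omK_ne_zero (p := p) (k := k) σ
  rw [← hd]; ring

theorem LinB_a_eq (hS : StdShape p M) {σ : GQ} (hσ : σ ∈ Iq p) : M σ 0 0 = omK p k σ := by
  have hd := hS.det σ
  rw [Matrix.det_fin_two, hS.low σ (Iq_le_Dq p hσ), hS.inert σ hσ] at hd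
  rw [← hd]; ring

theorem LinB_cyE_cast (σ : GQ) : ((cyE p σ : ℕ) : k) = omK p k σ := by
  unfold cyE omK
  rw [← map_natCast (algebraMap (ZMod p) k), ZMod.natCast_zmod_val]

theorem std_W0 (hp2 : p ≠ 2) (hS : StdShape p M) (hz : IsCoc M z)
    (h : Ord (R0 p) (Iq p) (defAct M z) H)
    {σ₀ : GQ} (hσ₀ : σ₀ ∈ Iq p) (hω : omK p k σ₀ ≠ 1) (h10 : z σ₀ 1 0 = 0) :
    ∀ σ ∈ Dq p, z σ 1 0 = 0 := by
  intro σ hσ
  have he := (e0_mem_aug (z := z) hS hσ₀ hω h10).1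
  have hm := act_mem_aug hz hσ he
  have h2 := aug_snd hp2 hS h hσ₀ hω h10 hm
  rw [LinB_defAct_e0] at h2
  simp only [Matrix.mul_apply, Fin.sum_univ_two, hS.low σ hσ, mul_zero, add_zero] at h2
  exact (mul_eq_zero.1 h2).resolve_right (LinB_a_ne_zero hS hσ)

theorem std_W1 (hp2 : p ≠ 2) (hS : StdShape p M) (hz : IsCoc M z) (htr : ∀ σ, (z σ).trace = 0)
    (h : Ord (R0 p) (Iq p) (defAct M z) H)
    {σ₀ : GQ} (hσ₀ : σ₀ ∈ Iq p) (hω : omK p k σ₀ ≠ 1) (h10 : z σ₀ 1 0 = 0) :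
    ∀ σ ∈ Iq p, z σ 0 0 = 0 ∧ z σ 1 1 = 0 := by
  intro σ hσ
  have hm : defAct M z σ ((![0, 1], 0) : EE k) - ((![0, 1], 0) : EE k) ∈
      aug (Iq p) (defAct M z) := AddSubgroup.subset_closure ⟨σ, hσ, _, rfl⟩
  have h2 := aug_snd hp2 hS h hσ₀ hω h10 hm
  rw [LinB_defAct_e1] at h2
  have hz10 := std_W0 hp2 hS hz h hσ₀ hω h10 σ (Iq_le_Dq p hσ)
  simp only [Prod.snd_sub, Pi.sub_apply, Pi.zero_apply, sub_zero, Matrix.mul_apply,
    Fin.sum_univ_two, hz10, zero_mul, zero_add, hS.inert σ hσ, mul_one] at h2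
  refine ⟨?_, h2⟩
  have ht := htr σ
  rw [Matrix.trace_fin_two, h2, add_zero] at ht
  exact ht

theorem std_omega (hp2 : p ≠ 2) (hS : StdShape p M) (hz : IsCoc M z)
    (htr : ∀ σ, (z σ).trace = 0) (h : Ord (R0 p) (Iq p) (defAct M z) H)
    {σ₀ : GQ} (hσ₀ : σ₀ ∈ Iq p) (hω : omK p k σ₀ ≠ 1) (h10 : z σ₀ 1 0 = 0) :
    ∀ σ ∈ Iq p, ∀ y ∈ aug (Iq p) (defAct M z), defAct M z σ y = cyE p σ • y := by
  intro σ hσ y hy
  have h1 := aug_fst hS hy
  have h2 := aug_snd hp2 hS h hσ₀ hω h10 hy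
  have hz10 := std_W0 hp2 hS hz h hσ₀ hω h10 σ (Iq_le_Dq p hσ)
  obtain ⟨hz00, hz11⟩ := std_W1 hp2 hS hz htr h hσ₀ hω h10 σ hσ
  have ha := LinB_a_eq hS hσ
  have hlow := hS.low σ (Iq_le_Dq p hσ)
  have hc := LinB_cyE_cast (p := p) (k := k) σ
  unfold defAct
  ext i
  · fin_cases i
    · simp [Matrix.mulVec, dotProduct, Fin.sum_univ_two, h1, ha, hc]
    · simp [Matrix.mulVec, dotProduct, Fin.sum_univ_two, h1, hlow]
  · fin_cases i
    · simp [Matrix.mulVec, dotProduct, Fin.sum_univ_two, Matrix.mul_apply, h1, h2, ha, hc, hz00,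
        hlow]
    · simp [Matrix.mulVec, dotProduct, Fin.sum_univ_two, Matrix.mul_apply, h1, h2, hlow, hz10,
        hz11]

theorem std_peu (hp2 : p ≠ 2) (hS : StdShape p M) (hz : IsCoc M z)
    (htr : ∀ σ, (z σ).trace = 0) (h : Ord (R0 p) (Iq p) (defAct M z) H)
    {σ₀ : GQ} (hσ₀ : σ₀ ∈ Iq p) (hω : omK p k σ₀ ≠ 1) (h10 : z σ₀ 1 0 = 0) :
    ∀ τ ∈ Ipeu p, M τ = 1 ∧ z τ = 0 := by
  intro τ hτ
  have hfix := h.peu hp2 kill (std_omega hp2 hS hz htr h hσ₀ hω h10) τ hτ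
  have e0 := hfix ((![1, 0], 0) : EE k)
  have e1 := hfix ((![0, 1], 0) : EE k)
  rw [LinB_defAct_e0] at e0
  rw [LinB_defAct_e1] at e1
  have hM : M τ = 1 := by
    ext i j
    fin_cases j
    · have := congrFun (congrArg Prod.fst e0) i
      fin_cases i <;> simpa using this
    · have := congrFun (congrArg Prod.fst e1) i
      fin_cases i <;> simpa using this
  refine ⟨hM, ?_⟩
  rw [hM, mul_one] at e0 e1
  ext i j
  fin_cases j
  · have := congrFun (congrArg Prod.snd e0) i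
    fin_cases i <;> simpa using this
  · have := congrFun (congrArg Prod.snd e1) i
    fin_cases i <;> simpa using this

end Fermat.Agent.S56.F.Red

end
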