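import Fermat.Agent.S56.F.Red.LinB
import Fermat.Agent.S56.Loc.Arith3
import Fermat.Agent.S56.Loc.OrdUniq

/-!
# S56 / F / Red / LinC : (R1) `red_data`, and uniqueness of the shape.

TASK S56/FR-LinC1 : `exists_m`, `stdShape_conjM`, `red_data`.        TASK S56/FR-LinC2 : `RedShape.low_cross`, `isW0_iff_of_redShape`, `isW1_iff_of_redShape`.

* `exists_m`: `R := C * M σ₀ * B = !![a₀, b₀; 0, 1]`, `R' := C * M σ₀⁻¹ * B`, `R R' = 1` ⇒ `R' = !![a₀⁻¹, -b₀ a₀⁻¹; 0, 1]`.  `m := B * !![0, 0; y, 0] * C`, `y := γ₀ a₀ / (1 - a₀)`, `γ₀ := (C * z σ₀ * B) 1 0`.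
  `trace m = trace (!![0,0;y,0] * (C * B)) = 0`.  `C (M σ₀ m M σ₀⁻¹ - m) B = R !![0,0;y,0] R' - !![0,0;y,0]`, entry `(1,0)`: `y a₀⁻¹ - y = γ₀`.
* `stdShape_conjM`: `det (C * M σ * B) = det (M σ)` (`Matrix.det_mul`, `mul_comm`, `← Matrix.det_mul`, `hCB`), `hM.det σ`, `omK`.
* `red_data`:  (1) `exists_ord_resAct h`, `aug_resAct_eq_line hp2 M hM _ hv hstab` give `e ≠ 0` and the line;  (2) `exists_basis_of_ne_zero`, `preshape`;  (3) `σ₀` from `Loc.exists_mem_Ip_cycloChar_ne_one hp2`,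
  `omK p k σ₀ ≠ 1` (injectivity of `algebraMap (ZMod p) k`, `Units.ext`), `a₀ = ω σ₀` from `det`;  (4) `m` from `exists_m`;  (5) `exists_ord_zTw`, `isCoc_zTw`, `trace_zTw`, `stdShape_conjM`;
  (6) `std_W0`, `std_W1`, `std_peu` applied to `conjM M B C hBC hCB`, `zTw M B C m z`.  Translate: `zTw M B C m z σ i j = (C * (z σ - (M σ * m * M σ⁻¹ - m)) * B) i j` by `rfl`;
  `C * X * B = 1 ⇒ X = B * C = 1`, `C * X * B = 0 ⇒ X = 0` (multiply by `B` on the left and `C` on the right: `Loc.OrdDim_sandwich`).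
* `RedShape.low_cross`: `σ₀ ∈ I`, `ω σ₀ ≠ 1`; `R = C M σ₀ B`, `R' = C' M σ₀ B'`, `T = C B'`: `R T = T R'` (insert `B C = 1`, `B' C' = 1`); entry `(1,0)`: `T 1 0 = ω σ₀ * T 1 0` (`R 1 0 = 0`, `R 1 1 = 1`, `R' 1 0 = 0`, `R' 0 0 = ω σ₀` by `det`).
* `isW1_iff_of_redShape`: `Loc.OrdUniq_imp` in both directions.   `isW0_iff_of_redShape`: `C' X B' = (C' B)(C X B)(C B')` with both outer matrices upper triangular.
-/

set_option autoImplicit false

noncomputable section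

namespace Fermat.Agent.S56.F.Red

open Fermat.Agent.S55 Fermat.Agent.S55.Places ExtCitation Module Fermat.Agent.S56.Loc

variable {p : ℕ} [Fact p.Prime] {k : Type} [Field k] [Algebra (ZMod p) k]
variable {M : GQ →* M2 k} {B C B' C' : M2 k}

/-! ### TASK S56/FR-LinC1 -/

omit [Fact p.Prime] [Algebra (ZMod p) k] in
theorem exists_m (hBC : B * C = 1) (hCB : C * B = 1) (z : GQ → M2 k) {σ₀ : GQ}
    (h10 : (C * M σ₀ * B) 1 0 = 0) (h11 : (C * M σ₀ * B) 1 1 = 1)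
    (h00 : (C * M σ₀ * B) 0 0 ≠ 1) (h00' : (C * M σ₀ * B) 0 0 ≠ 0) :
    ∃ m : M2 k, m.trace = 0 ∧ zTw M B C m z σ₀ 1 0 = 0 := by
  have hRR : (C * M σ₀ * B) * (C * M σ₀⁻¹ * B) = 1 := by
    calc (C * M σ₀ * B) * (C * M σ₀⁻¹ * B) = C * (M σ₀ * (B * C) * M σ₀⁻¹) * B := by
          simp only [mul_assoc]
      _ = 1 := by rw [hBC, mul_one, ← map_mul, mul_inv_cancel, map_one, mul_one, hCB]
  generalize hR : C * M σ₀ * B = R at *
  generalize hR' : C * M σ₀⁻¹ * B = R' at *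
  have e10 : R' 1 0 = 0 := by
    have := congrFun (congrFun hRR 1) 0
    simpa [Matrix.mul_apply, Fin.sum_univ_two, h10, h11] using this
  have e00 : R 0 0 * R' 0 0 = 1 := by
    have := congrFun (congrFun hRR 0) 0
    simpa [Matrix.mul_apply, Fin.sum_univ_two, e10] using this
  have e00' : R' 0 0 = (R 0 0)⁻¹ := eq_inv_of_mul_eq_one_right e00
  have h1a : (1 : k) - R 0 0 ≠ 0 := sub_ne_zero.2 (Ne.symm h00)
  generalize hZ : C * z σ₀ * B = Zc at *
  set y : k := Zc 1 0 * R 0 0 / (1 - R 0 0) with hy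
  refine ⟨B * !![0, 0; y, 0] * C, ?_, ?_⟩
  · rw [Matrix.trace_mul_comm, ← mul_assoc, hCB, one_mul, Matrix.trace_fin_two]
    simp
  · have key : zTw M B C (B * !![0, 0; y, 0] * C) z σ₀
        = Zc - (R * !![0, 0; y, 0] * R' - !![0, 0; y, 0]) := by
      have h2 : C * (B * !![0, 0; y, 0] * C) * B = !![0, 0; y, 0] := by
        calc C * (B * !![0, 0; y, 0] * C) * B = (C * B) * !![0, 0; y, 0] * (C * B) := by
              simp only [mul_assoc]
          _ = _ := by rw [hCB, one_mul, mul_one]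
      have h3 : C * (M σ₀ * (B * !![0, 0; y, 0] * C) * M σ₀⁻¹) * B
          = R * !![0, 0; y, 0] * R' := by
        rw [← hR, ← hR']
        simp only [mul_assoc]
      unfold zTw
      rw [mul_sub, mul_sub, sub_mul, sub_mul, h2, h3, hZ]
    rw [key]
    simp only [Matrix.sub_apply, Matrix.mul_apply, Fin.sum_univ_two, Matrix.of_apply,
      Matrix.cons_val', Matrix.cons_val_zero, Matrix.cons_val_one, Matrix.cons_val_fin_one,
      h10, h11, e00', mul_zero, zero_mul, add_zero, zero_add, one_mul]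
    rw [hy]
    field_simp
    ring

theorem stdShape_conjM (hM : ResHyp p M) (hBC : B * C = 1) (hCB : C * B = 1)
    (low : ∀ σ ∈ Dq p, (C * M σ * B) 1 0 = 0) (inert : ∀ σ ∈ Iq p, (C * M σ * B) 1 1 = 1) :
    StdShape p (conjM M B C hBC hCB) := by
  refine ⟨low, inert, fun σ => ?_⟩
  rw [conjM_apply, Matrix.det_mul, Matrix.det_mul, mul_comm (C.det), mul_assoc, ← Matrix.det_mul,
    hCB, Matrix.det_one, mul_one, hM.det σ]
  rfl

theorem red_data [Finite k] (hp2 : p ≠ 2) (hM : ResHyp p M) (z : GQ → M2 k) (hz : IsCoc M z)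
    (htr : ∀ σ, (z σ).trace = 0) {H : Subalgebra (R0 p) (EE k → Qbar)}
    (h : Ord (R0 p) (Iq p) (defAct M z) H)
    (hline : ∃ v : Fin 2 → k, v ≠ 0 ∧ ∀ σ ∈ Dq p, ∃ a : k, (M σ).mulVec v = a • v) :
    ∃ B C : M2 k, RedShape p M B C ∧ ∃ m : M2 k, m.trace = 0 ∧
      (∀ σ ∈ Dq p, IsW0 B C (z σ - (M σ * m * M σ⁻¹ - m))) ∧
      (∀ σ ∈ Iq p, IsW1 B C (z σ - (M σ * m * M σ⁻¹ - m))) ∧
      (∀ σ ∈ Ipeu p, z σ - (M σ * m * M σ⁻¹ - m) = 0) := by
  obtain ⟨v, hv, hstab⟩ := hline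
  obtain ⟨e, he, hl⟩ := aug_resAct_eq_line hp2 M hM (exists_ord_resAct h) hv hstab
  obtain ⟨B, C, hBC, hCB, hB⟩ := exists_basis_of_ne_zero he
  obtain ⟨low, inert⟩ := preshape (p := p) M hl hCB hB
  have hS := stdShape_conjM hM hBC hCB low inert
  obtain ⟨σ₀, hσ₀, hσ₀1⟩ := Loc.exists_mem_Ip_cycloChar_ne_one (p := p) hp2
  have hω : omK p k σ₀ ≠ 1 := by
    intro hc
    apply hσ₀1
    apply Units.ext
    apply (algebraMap (ZMod p) k).injective
    rw [Units.val_one, map_one]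
    exact hc
  have hω0 : omK p k σ₀ ≠ 0 := by
    intro hc
    have h1 : ((cycloChar p σ₀ : (ZMod p)ˣ) : ZMod p) = 0 := by
      apply (algebraMap (ZMod p) k).injective
      rw [map_zero]
      exact hc
    exact (cycloChar p σ₀ : (ZMod p)ˣ).ne_zero h1
  have ha₀ : (C * M σ₀ * B) 0 0 = omK p k σ₀ := by
    have h1 := hS.det σ₀
    rw [conjM_apply, Matrix.det_fin_two, low σ₀ (Iq_le_Dq p hσ₀), inert σ₀ hσ₀, mul_one, mul_zero,
      sub_zero] at h1
    exact h1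
  obtain ⟨m, hm, hm10⟩ := exists_m hBC hCB z (low σ₀ (Iq_le_Dq p hσ₀)) (inert σ₀ hσ₀)
    (by rw [ha₀]; exact hω) (by rw [ha₀]; exact hω0)
  obtain ⟨H', h'⟩ := exists_ord_zTw hBC hCB h m
  have hz' := isCoc_zTw hBC hCB hz m
  have htr' := trace_zTw (M := M) (C := C) hBC htr m
  have W0 := std_W0 hp2 hS hz' h' hσ₀ hω hm10
  have W1 := std_W1 hp2 hS hz' htr' h' hσ₀ hω hm10
  have Wp := std_peu hp2 hS hz' htr' h' hσ₀ hω hm10
  refine ⟨B, C, ⟨hBC, hCB, low, inert, fun σ hσ => ?_⟩, m, hm, fun σ hσ => W0 σ hσ,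
    fun σ hσ => ⟨(W1 σ hσ).1, W0 σ (Iq_le_Dq p hσ), (W1 σ hσ).2⟩, fun σ hσ => ?_⟩
  · have h1 : C * M σ * B = 1 := (Wp σ hσ).1
    calc M σ = (B * C) * M σ * (B * C) := by rw [hBC, one_mul, mul_one]
      _ = B * (C * M σ * B) * C := by simp only [mul_assoc]
      _ = 1 := by rw [h1, mul_one, hBC]
  · have h1 : C * (z σ - (M σ * m * M σ⁻¹ - m)) * B = 0 := (Wp σ hσ).2
    calc z σ - (M σ * m * M σ⁻¹ - m)
        = (B * C) * (z σ - (M σ * m * M σ⁻¹ - m)) * (B * C) := by rw [hBC, one_mul, mul_one]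
      _ = B * (C * (z σ - (M σ * m * M σ⁻¹ - m)) * B) * C := by simp only [mul_assoc]
      _ = 0 := by rw [h1, mul_zero, zero_mul]

/-! ### TASK S56/FR-LinC2 -/

theorem LinC_diag (hM : ResHyp p M) (h : RedShape p M B C) {σ : GQ} (hσ : σ ∈ Iq p) :
    (C * M σ * B) 0 0 = omK p k σ := by
  have hdet : (C * M σ * B).det = (M σ).det := by
    rw [Matrix.det_mul, Matrix.det_mul, mul_comm (C.det), mul_assoc, ← Matrix.det_mul, h.mul',
      Matrix.det_one, mul_one]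
  rw [Matrix.det_fin_two, h.low σ (Iq_le_Dq p hσ), h.inert σ hσ, hM.det σ, mul_one, mul_zero,
    sub_zero] at hdet
  exact hdet

omit [Fact p.Prime] [Algebra (ZMod p) k] in
theorem LinC_W0_imp (hBC : B * C = 1) (hT : (C * B') 1 0 = 0)
    (hT' : (C' * B) 1 0 = 0) {m : M2 k} (hm : IsW0 B C m) : IsW0 B' C' m := by
  unfold IsW0 at hm ⊢
  have e : C' * m * B' = (C' * B) * (C * m * B) * (C * B') := by
    have e1 : (C' * B) * (C * m * B) * (C * B') = C' * (B * C) * m * (B * C) * B' := by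
      simp only [mul_assoc]
    rw [e1, hBC, mul_one, mul_one]
  rw [e]
  simp only [Matrix.mul_apply (M := (C' * B) * (C * m * B)), Matrix.mul_apply (M := C' * B),
    Fin.sum_univ_two, hm, hT, hT']
  ring

theorem RedShape.low_cross (hp2 : p ≠ 2) (hM : ResHyp p M) (h : RedShape p M B C)
    (h' : RedShape p M B' C') : (C * B') 1 0 = 0 := by
  obtain ⟨σ, hσ, hc⟩ := exists_mem_Ip_cycloChar_ne_one (p := p) hp2
  have hσD : σ ∈ Dq p := Iq_le_Dq p hσ
  have hω : omK p k σ ≠ 1 := by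
    intro h1
    apply hc
    apply Units.ext
    apply (algebraMap (ZMod p) k).injective
    rw [Units.val_one, map_one]
    exact h1
  have hcomm : (C * M σ * B) * (C * B') = (C * B') * (C' * M σ * B') := by
    have e1 : (C * M σ * B) * (C * B') = C * M σ * (B * C) * B' := by simp only [mul_assoc]
    have e2 : (C * B') * (C' * M σ * B') = C * (B' * C') * M σ * B' := by simp only [mul_assoc]
    rw [e1, e2, h.mul, h'.mul, mul_one, mul_one]
  have h10 := congrFun (congrFun hcomm 1) 0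
  rw [Matrix.mul_apply, Matrix.mul_apply, Fin.sum_univ_two, Fin.sum_univ_two, h.low σ hσD,
    h.inert σ hσ, h'.low σ hσD, LinC_diag hM h' hσ] at h10
  have h2 : (C * B') 1 0 * (1 - omK p k σ) = 0 := by linear_combination h10
  exact (mul_eq_zero.1 h2).resolve_right (sub_ne_zero.2 (Ne.symm hω))

theorem isW0_iff_of_redShape (hp2 : p ≠ 2) (hM : ResHyp p M) (h : RedShape p M B C)
    (h' : RedShape p M B' C') (m : M2 k) : IsW0 B C m ↔ IsW0 B' C' m :=
  ⟨LinC_W0_imp h.mul (h.low_cross hp2 hM h') (h'.low_cross hp2 hM h),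
    LinC_W0_imp h'.mul (h'.low_cross hp2 hM h) (h.low_cross hp2 hM h')⟩

theorem isW1_iff_of_redShape (hp2 : p ≠ 2) (hM : ResHyp p M) (h : RedShape p M B C)
    (h' : RedShape p M B' C') (m : M2 k) : IsW1 B C m ↔ IsW1 B' C' m :=
  ⟨OrdUniq_imp h.mul (h.low_cross hp2 hM h') (h'.low_cross hp2 hM h),
    OrdUniq_imp h'.mul (h'.low_cross hp2 hM h) (h.low_cross hp2 hM h')⟩

end Fermat.Agent.S56.F.Red

end
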