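import Fermat.Agent.S56.F.Red.Defs

/-!
# S56 / F / Red / LinDefs : definitions for the linear algebra step (R1).  (sorry-free, FROZEN)

* `IsCoc M z`      : `z (σ τ) = M σ z τ M σ⁻¹ + z σ`;
* `conjM M B C`    : the conjugated representation `σ ↦ C * M σ * B`;
* `zTw M B C m z`  : `σ ↦ C * (z σ - (M σ m M σ⁻¹ - m)) * B`;
* `jTw B m`        : the additive map `(v, w) ↦ (B v, B w - m B v)` intertwining `defAct (conjM ..) (zTw ..)` and `defAct M z`;
* `StdShape p M`   : `M σ = !![*, *; 0, *]` on `D`, `M σ 1 1 = 1` on `I`, `det = ω`.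
-/

set_option autoImplicit false

noncomputable section

namespace Fermat.Agent.S56.F.Red

open Fermat.Agent.S55 Fermat.Agent.S55.Places ExtCitation Module Fermat.Agent.S56.Loc

variable {k : Type} [Field k]

/-- `z` is a cocycle for `ad M`. -/
def IsCoc (M : GQ →* M2 k) (z : GQ → M2 k) : Prop :=
  ∀ σ τ, z (σ * τ) = M σ * z τ * M σ⁻¹ + z σ

/-- the conjugated representation. -/
def conjM (M : GQ →* M2 k) (B C : M2 k) (hBC : B * C = 1) (hCB : C * B = 1) : GQ →* M2 k where
  toFun σ := C * M σ * B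
  map_one' := by rw [map_one, mul_one, hCB]
  map_mul' σ τ := by
    rw [map_mul]
    calc C * (M σ * M τ) * B = C * M σ * 1 * (M τ * B) := by simp only [mul_one, mul_assoc]
      _ = C * M σ * B * (C * M τ * B) := by rw [← hBC]; simp only [mul_assoc]

@[simp] lemma conjM_apply (M : GQ →* M2 k) (B C : M2 k) (hBC : B * C = 1) (hCB : C * B = 1)
    (σ : GQ) : conjM M B C hBC hCB σ = C * M σ * B := rfl

/-- the conjugated cocycle, modified by the coboundary of `m`. -/
def zTw (M : GQ →* M2 k) (B C m : M2 k) (z : GQ → M2 k) : GQ → M2 k :=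
  fun σ => C * (z σ - (M σ * m * M σ⁻¹ - m)) * B

/-- `(v, w) ↦ (B v, B w - m B v)`. -/
def jTw (B m : M2 k) : EE k →+ EE k where
  toFun x := (B.mulVec x.1, B.mulVec x.2 - m.mulVec (B.mulVec x.1))
  map_zero' := by simp
  map_add' x y := by
    ext i
    · simp only [Prod.fst_add, Matrix.mulVec_add, Pi.add_apply]
    · simp only [Prod.snd_add, Prod.fst_add, Matrix.mulVec_add, Pi.sub_apply, Pi.add_apply]
      ring

/-- the standard shape. -/
structure StdShape (p : ℕ) [Fact p.Prime] [Algebra (ZMod p) k] (M : GQ →* M2 k) : Prop where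
  low : ∀ σ ∈ Dq p, M σ 1 0 = 0
  inert : ∀ σ ∈ Iq p, M σ 1 1 = 1
  det : ∀ σ, (M σ).det = omK p k σ

end Fermat.Agent.S56.F.Red

end
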