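import Fermat.Agent.S56.F.Red.Defs

/-!
# S56 / F / Red / Res : the total residue map `resT`.        TASK S56/FR-Res

`resT p x = residueRes p x h` if `h : nrm p x ≤ 1` (`dif_pos`), and `residueRes p x h = IsLocalRing.residue (padicPlace p) ⟨x, _⟩`
(a ring hom): unfold, use `map_add`, `map_mul`, `map_pow`; `residueRes_eq_iff`, `residueRes_pow` (S55/Places/Residue).
Norm facts: `nrm_add_le_max`, `nrm_mul`, `nrm_pow`, `nrm_map_of_mem_Dq`.  `IsFrob p φ = φ ∈ Dq p ∧ ∀ x, nrm p x ≤ 1 → nrm p (φ x - x ^ p) < 1`.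
-/

set_option autoImplicit false

noncomputable section

namespace Fermat.Agent.S56.F.Red

open Fermat.Agent.S55 Fermat.Agent.S55.Places ExtCitation Module

variable {p : ℕ} [Fact p.Prime]

theorem resT_of_le {x : Qbar} (h : nrm p x ≤ 1) : resT p x = residueRes p x h := by
  unfold resT
  rw [dif_pos h]

theorem resT_eq_iff {x y : Qbar} (hx : nrm p x ≤ 1) (hy : nrm p y ≤ 1) :
    resT p x = resT p y ↔ nrm p (x - y) < 1 := by
  rw [resT_of_le hx, resT_of_le hy, residueRes_eq_iff]

theorem resT_zero : resT p 0 = 0 := by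
  have h : nrm p (0 : Qbar) ≤ 1 := by rw [nrm_zero]; exact zero_le_one
  rw [resT_of_le h]
  unfold residueRes
  exact map_zero (IsLocalRing.residue (padicPlace p))

theorem resT_one : resT p 1 = 1 := by
  have h : nrm p (1 : Qbar) ≤ 1 := by rw [nrm_one]
  rw [resT_of_le h]
  unfold residueRes
  exact map_one (IsLocalRing.residue (padicPlace p))

theorem resT_eq_zero_iff {x : Qbar} (hx : nrm p x ≤ 1) : resT p x = 0 ↔ nrm p x < 1 := by
  have h : nrm p (0 : Qbar) ≤ 1 := by rw [nrm_zero]; exact zero_le_one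
  rw [← resT_zero (p := p), resT_eq_iff hx h, sub_zero]

theorem resT_add {x y : Qbar} (hx : nrm p x ≤ 1) (hy : nrm p y ≤ 1) :
    resT p (x + y) = resT p x + resT p y := by
  have h : nrm p (x + y) ≤ 1 := (nrm_add_le_max p x y).trans (max_le hx hy)
  rw [resT_of_le hx, resT_of_le hy, resT_of_le h]
  unfold residueRes
  rw [← map_add]
  rfl

theorem resT_mul {x y : Qbar} (hx : nrm p x ≤ 1) (hy : nrm p y ≤ 1) :
    resT p (x * y) = resT p x * resT p y := by
  have h : nrm p (x * y) ≤ 1 := by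
    rw [nrm_mul]
    exact mul_le_one₀ hx (nrm_nonneg p y) hy
  rw [resT_of_le hx, resT_of_le hy, resT_of_le h]
  unfold residueRes
  rw [← map_mul]
  rfl

theorem resT_pow {x : Qbar} (hx : nrm p x ≤ 1) (n : ℕ) : resT p (x ^ n) = resT p x ^ n := by
  rw [resT_of_le hx, resT_of_le (residue_nrm_pow_le_one p hx n), residueRes_pow]

theorem resT_frob {φ : GQ} (hφ : IsFrob p φ) {x : Qbar} (hx : nrm p x ≤ 1) :
    resT p (φ x) = resT p x ^ p := by
  have h : nrm p (φ x) ≤ 1 := by rw [nrm_map_of_mem_Dq p hφ.1]; exact hx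
  rw [← resT_pow hx, resT_eq_iff h (residue_nrm_pow_le_one p hx p)]
  exact hφ.2 x hx

end Fermat.Agent.S56.F.Red

end
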