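import Fermat.Agent.S56.F.Red.Res
import Fermat.Agent.S55.Places.Unram
import Fermat.Agent.S55.Places.PthPower

/-!
# S56 / F / Red / Unit : the "Fermat quotient" `rr φ u = ((φ u / u ^ p - 1) / p mod 𝔪)` on the units of `R0 p`.

TASK S56/FR-UnitA : everything up to `rr_frob`.       TASK S56/FR-UnitB : `exists_root_of_rr_eq_zero`.

`IsU p u := nrm p u = 1 ∧ ∀ σ ∈ Iq p, σ u = u`.
* `exists_zpow_of_fixed`: `nrm_of_unramified (E := ℚ⟮x⟯)` (S55/Places/Unram; `cyclo_finiteDimensional_adjoin`, `cyclo_mem_fixingSubgroup_adjoin` in S55/Places/Cyclo,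
  or `Roots_mem_fixingSubgroup_adjoin` in Roots).
* `nrm_le_inv_of_fixed`: `p ^ i < 1 ⇒ i ≤ -1 ⇒ p ^ i ≤ p⁻¹`.
* `fixed_map`: `σ (g x) = g ((g⁻¹ σ g) x)`, `g⁻¹ σ g ∈ Iq p` (`Iq_conj_mem p (inv_mem hg) hσ`, with `g⁻¹⁻¹ = g`).
* `nrm_fq_le_one`: `φ u - u ^ p` is fixed by `I`, of norm `< 1`, hence `≤ p⁻¹`; divide by `u ^ p` (norm 1) and `p` (`nrm_natCast_self`).
* `rr_mul`: with `A = fq φ u`, `B = fq φ v`: `φ u / u ^ p = 1 + p A`, so `fq φ (u v) = A + B + p A B`; `resT_add`, and `resT (p A B) = 0`.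
* `rr_frob`: `fq φ (φ u) = φ (fq φ u)` (`map_div₀`, `map_sub`, `map_pow`, `map_natCast`), then `resT_frob`.
* `exists_root_of_rr_eq_zero`: `v₀ := φ⁻¹ u` is in `IsU`; `rr φ u = rr φ (φ v₀) = (rr φ v₀) ^ p = 0 ⇒ rr φ v₀ = 0 ⇒ nrm (fq φ v₀) < 1`, fixed by `I` ⇒ `≤ p⁻¹`;
  `u / v₀ ^ p - 1 = p * fq φ v₀` has norm `≤ p⁻²`, and `(p⁻²)^(p-1) < (p⁻¹)^p` as `p ≥ 3`;
  `exists_pow_eq_mem_Fix (W := Iq p) (Iq_le_Dq p)` gives `α ∈ Fix (Iq p)`, `α ^ p = u / v₀ ^ p`; `v := α v₀` (`nrm v = 1` since `nrm v ^ p = 1`).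
-/

set_option autoImplicit false

noncomputable section

namespace Fermat.Agent.S56.F.Red

open Fermat.Agent.S55 Fermat.Agent.S55.Places ExtCitation Module

variable {p : ℕ} [Fact p.Prime]

/-! ### TASK S56/FR-UnitA -/

theorem exists_zpow_of_fixed {x : Qbar} (hx : ∀ σ ∈ Iq p, σ x = x) (h0 : x ≠ 0) :
    ∃ i : ℤ, nrm p x = (p : ℝ) ^ i := by
  have hfd : FiniteDimensional ℚ (IntermediateField.adjoin ℚ {x} : NF) :=
    IntermediateField.adjoin.finiteDimensional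
      ((AlgebraicClosure.isAlgebraic ℚ).isAlgebraic x).isIntegral
  refine nrm_of_unramified (q := p) (IntermediateField.adjoin ℚ {x} : NF) (fun g hg => ?_)
    (IntermediateField.mem_adjoin_simple_self ℚ x) h0
  rw [IntermediateField.mem_fixingSubgroup_iff]
  intro y hy
  induction hy using IntermediateField.adjoin_induction with
  | mem y hy =>
    rw [Set.mem_singleton_iff] at hy
    rw [hy]
    exact hx g hg
  | algebraMap y => exact g.commutes y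
  | add y z _ _ hy hz => rw [map_add, hy, hz]
  | inv y _ hy => rw [map_inv₀, hy]
  | mul y z _ _ hy hz => rw [map_mul, hy, hz]

theorem nrm_le_inv_of_fixed {x : Qbar} (hx : ∀ σ ∈ Iq p, σ x = x) (h1 : nrm p x < 1) :
    nrm p x ≤ (p : ℝ)⁻¹ := by
  have hp1 : (1 : ℝ) < p := by exact_mod_cast (Fact.out : p.Prime).one_lt
  by_cases h0 : x = 0
  · rw [h0, nrm_zero]
    positivity
  obtain ⟨i, hi⟩ := exists_zpow_of_fixed hx h0
  rw [hi] at h1 ⊢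
  have hi0 : i < 0 := by
    by_contra hcon
    push Not at hcon
    exact absurd h1 (not_lt.mpr (one_le_zpow₀ hp1.le hcon))
  rw [← zpow_neg_one]
  exact zpow_le_zpow_right₀ hp1.le (by omega)

theorem fixed_map {g : GQ} (hg : g ∈ Dq p) {x : Qbar} (hx : ∀ σ ∈ Iq p, σ x = x) :
    ∀ σ ∈ Iq p, σ (g x) = g x := by
  intro σ hσ
  have h1 : g⁻¹ * σ * g ∈ Iq p := by
    have := Iq_conj_mem p (inv_mem hg) hσ
    rwa [inv_inv] at this
  have h2 := hx _ h1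
  have h3 : g ((g⁻¹ * σ * g) x) = σ (g x) := by
    rw [← AlgEquiv.mul_apply, ← mul_assoc, ← mul_assoc, mul_inv_cancel, one_mul,
      AlgEquiv.mul_apply]
  rw [← h3, h2]

theorem IsU.ne_zero {u : Qbar} (hu : IsU p u) : u ≠ 0 := by
  rintro rfl
  have := hu.1
  rw [nrm_zero] at this
  exact zero_ne_one this

theorem IsU.one : IsU p 1 := ⟨nrm_one p, fun σ _ => map_one σ⟩

theorem IsU.mul {u v : Qbar} (hu : IsU p u) (hv : IsU p v) : IsU p (u * v) :=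
  ⟨by rw [nrm_mul, hu.1, hv.1, one_mul], fun σ hσ => by rw [map_mul, hu.2 σ hσ, hv.2 σ hσ]⟩

theorem IsU.inv {u : Qbar} (hu : IsU p u) : IsU p u⁻¹ :=
  ⟨by rw [nrm_inv, hu.1, inv_one], fun σ hσ => by rw [map_inv₀, hu.2 σ hσ]⟩

theorem IsU.pow {u : Qbar} (hu : IsU p u) (n : ℕ) : IsU p (u ^ n) :=
  ⟨by rw [nrm_pow, hu.1, one_pow], fun σ hσ => by rw [map_pow, hu.2 σ hσ]⟩

theorem IsU.map {u : Qbar} (hu : IsU p u) {g : GQ} (hg : g ∈ Dq p) : IsU p (g u) :=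
  ⟨by rw [nrm_map_of_mem_Dq p hg, hu.1], fixed_map hg hu.2⟩

theorem fq_fixed {φ : GQ} (hφ : IsFrob p φ) {u : Qbar} (hu : IsU p u) :
    ∀ σ ∈ Iq p, σ (fq p φ u) = fq p φ u := by
  intro σ hσ
  unfold fq
  rw [map_div₀, map_sub, map_div₀, map_pow, map_one, map_natCast, hu.2 σ hσ,
    (hu.map hφ.1).2 σ hσ]

theorem nrm_fq_le_one {φ : GQ} (hφ : IsFrob p φ) {u : Qbar} (hu : IsU p u) :
    nrm p (fq p φ u) ≤ 1 := by
  have hp0 : (0 : ℝ) < p := by exact_mod_cast (Fact.out : p.Prime).pos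
  have hu0 := hu.ne_zero
  have h1 : nrm p (φ u - u ^ p) < 1 := hφ.2 u hu.1.le
  have h2 : ∀ σ ∈ Iq p, σ (φ u - u ^ p) = φ u - u ^ p := by
    intro σ hσ
    rw [map_sub, map_pow, hu.2 σ hσ, (hu.map hφ.1).2 σ hσ]
  have h3 := nrm_le_inv_of_fixed h2 h1
  have h4 : fq p φ u = (φ u - u ^ p) / u ^ p / (p : Qbar) := by
    unfold fq
    have : u ^ p ≠ 0 := pow_ne_zero p hu0
    field_simp
  rw [h4, nrm_div, nrm_div, nrm_pow, hu.1, one_pow, div_one, nrm_natCast_self, div_inv_eq_mul]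
  calc nrm p (φ u - u ^ p) * p ≤ (p : ℝ)⁻¹ * p := mul_le_mul_of_nonneg_right h3 hp0.le
    _ = 1 := inv_mul_cancel₀ hp0.ne'

theorem rr_mul {φ : GQ} (hφ : IsFrob p φ) {u v : Qbar} (hu : IsU p u) (hv : IsU p v) :
    rr p φ (u * v) = rr p φ u + rr p φ v := by
  have hp1 : (1 : ℝ) < p := by exact_mod_cast (Fact.out : p.Prime).one_lt
  have hpQ : (p : Qbar) ≠ 0 := by exact_mod_cast (Fact.out : p.Prime).ne_zero
  have hu0 := hu.ne_zero
  have hv0 := hv.ne_zero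
  have hA := nrm_fq_le_one hφ hu
  have hB := nrm_fq_le_one hφ hv
  have hkey : fq p φ (u * v) = (fq p φ u + fq p φ v) + (p : Qbar) * (fq p φ u * fq p φ v) := by
    unfold fq
    rw [map_mul, mul_pow]
    have h1 : u ^ p ≠ 0 := pow_ne_zero p hu0
    have h2 : v ^ p ≠ 0 := pow_ne_zero p hv0
    field_simp
    ring
  have hAB : nrm p (fq p φ u + fq p φ v) ≤ 1 :=
    (nrm_add_le_max p _ _).trans (max_le hA hB)
  have hC : nrm p ((p : Qbar) * (fq p φ u * fq p φ v)) < 1 := by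
    rw [nrm_mul, nrm_mul, nrm_natCast_self]
    have h1 : nrm p (fq p φ u) * nrm p (fq p φ v) ≤ 1 :=
      mul_le_one₀ hA (nrm_nonneg p _) hB
    have h2 : (p : ℝ)⁻¹ < 1 := inv_lt_one_of_one_lt₀ hp1
    calc (p : ℝ)⁻¹ * (nrm p (fq p φ u) * nrm p (fq p φ v)) ≤ (p : ℝ)⁻¹ * 1 :=
          mul_le_mul_of_nonneg_left h1 (by positivity)
      _ < 1 := by rwa [mul_one]
  unfold rr
  rw [hkey, resT_add hAB hC.le, resT_add hA hB, (resT_eq_zero_iff hC.le).mpr hC, add_zero]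

theorem rr_one {φ : GQ} : rr p φ 1 = 0 := by
  unfold rr fq
  rw [map_one, one_pow, div_one, sub_self, zero_div, resT_zero]

theorem rr_pow {φ : GQ} (hφ : IsFrob p φ) {u : Qbar} (hu : IsU p u) (n : ℕ) :
    rr p φ (u ^ n) = n • rr p φ u := by
  induction n with
  | zero => rw [pow_zero, rr_one, zero_smul]
  | succ n ih => rw [pow_succ, rr_mul hφ (hu.pow n) hu, ih, succ_nsmul]

theorem rr_pow_p {φ : GQ} (hφ : IsFrob p φ) {u : Qbar} (hu : IsU p u) : rr p φ (u ^ p) = 0 := by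
  rw [rr_pow hφ hu, nsmul_eq_mul, CharP.cast_eq_zero, zero_mul]

theorem rr_frob {φ : GQ} (hφ : IsFrob p φ) {u : Qbar} (hu : IsU p u) :
    rr p φ (φ u) = rr p φ u ^ p := by
  have h : fq p φ (φ u) = φ (fq p φ u) := by
    unfold fq
    rw [map_div₀, map_sub, map_div₀, map_pow, map_one, map_natCast]
  unfold rr
  rw [h, resT_frob hφ (nrm_fq_le_one hφ hu)]

theorem exists_root_of_rr_eq_zero (hp2 : p ≠ 2) {φ : GQ} (hφ : IsFrob p φ) {u : Qbar}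
    (hu : IsU p u) (h : rr p φ u = 0) : ∃ v, IsU p v ∧ v ^ p = u := by
  have hp : p.Prime := Fact.out
  have hp3 : 3 ≤ p := by
    have := hp.two_le
    omega
  set v₀ : Qbar := φ⁻¹ u with hv₀def
  have hv₀ : IsU p v₀ := hu.map (inv_mem hφ.1)
  have hφv : φ v₀ = u := by
    rw [hv₀def]
    exact AlgEquiv.apply_symm_apply φ u
  have hv₀0 : v₀ ≠ 0 := hv₀.ne_zero
  have h1 : rr p φ v₀ = 0 := by
    rw [← hφv, rr_frob hφ hv₀] at h
    exact (pow_eq_zero_iff hp.ne_zero).1 h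
  have h2 : nrm p (fq p φ v₀) < 1 := (resT_eq_zero_iff (nrm_fq_le_one hφ hv₀)).1 h1
  have h3 : nrm p (fq p φ v₀) ≤ (p : ℝ)⁻¹ := nrm_le_inv_of_fixed (fq_fixed hφ hv₀) h2
  have hpQ : (p : Qbar) ≠ 0 := Nat.cast_ne_zero.2 hp.ne_zero
  have h4 : u / v₀ ^ p - 1 = (p : Qbar) * fq p φ v₀ := by
    unfold fq
    rw [hφv, mul_div_cancel₀ _ hpQ]
  have hr0 : (0 : ℝ) < (p : ℝ)⁻¹ := inv_pos.2 (by exact_mod_cast hp.pos)
  have hr1 : (p : ℝ)⁻¹ < 1 := inv_lt_one_of_one_lt₀ (by exact_mod_cast hp.one_lt)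
  have h5 : nrm p (u / v₀ ^ p - 1) ≤ (p : ℝ)⁻¹ ^ 2 := by
    rw [h4, nrm_mul, nrm_natCast_self, pow_two]
    exact mul_le_mul_of_nonneg_left h3 hr0.le
  have h6 : nrm p (u / v₀ ^ p - 1) ^ (p - 1) < nrm p (p : Qbar) ^ p := by
    rw [nrm_natCast_self]
    calc nrm p (u / v₀ ^ p - 1) ^ (p - 1) ≤ ((p : ℝ)⁻¹ ^ 2) ^ (p - 1) :=
          pow_le_pow_left₀ (nrm_nonneg p _) h5 _
      _ = (p : ℝ)⁻¹ ^ (2 * (p - 1)) := by rw [← pow_mul]
      _ < (p : ℝ)⁻¹ ^ p := pow_lt_pow_right_of_lt_one₀ hr0 hr1 (by omega)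
  have h7 : u / v₀ ^ p ∈ Places.Fix (Iq p) := by
    rw [mem_Fix_iff]
    intro g hg
    rw [map_div₀, map_pow, hu.2 g hg, hv₀.2 g hg]
  obtain ⟨α, hα, hαp, -, -⟩ := exists_pow_eq_mem_Fix (q := p) hp (Iq_le_Dq p) h7 h6
  rw [mem_Fix_iff] at hα
  have h8 : (α * v₀) ^ p = u := by
    rw [mul_pow, hαp, div_mul_cancel₀ _ (pow_ne_zero p hv₀0)]
  refine ⟨α * v₀, ⟨?_, fun σ hσ => ?_⟩, h8⟩
  · have h9 : nrm p (α * v₀) ^ p = 1 := by rw [← nrm_pow, h8, hu.1]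
    exact (pow_eq_one_iff_of_nonneg (nrm_nonneg p _) hp.ne_zero).1 h9
  · rw [map_mul, hα σ hσ, hv₀.2 σ hσ]

end Fermat.Agent.S56.F.Red

end
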